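import Fermat.Agent.CarayolSquare.Supersingular.SuperNorm

/-!
# Gluing at a triple point

Gluing at a point through which the three components pass, which is the only point over its image
in the base, and at whose local ring the kernels of the first two components generate the maximal
ideal.  The roots of the residues have representatives with the same value at the point
(`exists_lifts`, `glueSupersingular_of`).
-/

set_option autoImplicit false

noncomputable section

namespace FLTAgent.CarayolSquare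

/-- Roots of one element modulo three ideals with equal values lift simultaneously when two of the
ideals generate the maximal one. -/
theorem exists_lift_three {R k : Type*} [CommRing R] [Field k] (φ : R →+* k)
    (hunit : ∀ z, φ z ≠ 0 → IsUnit z) {I J K : Ideal R} (hI : I ≤ RingHom.ker φ)
    (hIJ : RingHom.ker φ ≤ I ⊔ J) {m : ℕ} (hm : (m : k) ≠ 0) {U₁ U₂ U₃ V : R} {μ : k} (hμ : μ ≠ 0)
    (h₁ : φ U₁ = μ) (h₂ : φ U₂ = μ) (h₃ : φ U₃ = μ) (e₁ : U₁ ^ m - V ∈ I) (e₂ : U₂ ^ m - V ∈ J)
    (e₃ : U₃ ^ m - V ∈ K) :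
    ∃ W : R, φ W = μ ∧ W - U₁ ∈ I ∧ W - U₂ ∈ J ∧ W - U₃ ∈ K := by
  obtain ⟨a, ha, b, hb, hab⟩ := Submodule.mem_sup.mp (hIJ (show U₂ - U₁ ∈ RingHom.ker φ by
    rw [RingHom.mem_ker, map_sub, h₁, h₂, sub_self]))
  set W₁ := U₁ + a with hW₁
  have ha0 : φ a = 0 := hI ha
  have hW₁φ : φ W₁ = μ := by rw [hW₁, map_add, h₁, ha0, add_zero]
  have hJ1 : W₁ - U₂ ∈ J := by
    rw [show W₁ - U₂ = -b by rw [hW₁]; linear_combination hab]
    exact neg_mem hb
  have hpow : ∀ {L : Ideal R} {U : R}, W₁ - U ∈ L → U ^ m - V ∈ L → W₁ ^ m - V ∈ L := by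
    intro L U h h'
    have h1 : W₁ ^ m - U ^ m ∈ L := by
      rw [← geom_sum₂_mul]; exact L.mul_mem_left _ h
    simpa using add_mem h1 h'
  have hmem : W₁ ^ m - U₃ ^ m ∈ I ⊓ J ⊔ K := by
    rw [show W₁ ^ m - U₃ ^ m = (W₁ ^ m - V) + -(U₃ ^ m - V) by ring]
    refine Submodule.add_mem_sup ⟨hpow ?_ e₁, hpow hJ1 e₂⟩ (neg_mem e₃)
    rw [hW₁, add_sub_cancel_left]
    exact ha
  rw [← geom_sum₂_mul] at hmem
  have hu : IsUnit (∑ i ∈ Finset.range m, W₁ ^ i * U₃ ^ (m - 1 - i)) := hunit _ (by
    rw [map_sum, Finset.sum_congr rfl (g := fun _ => μ ^ (m - 1)) fun i hi => by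
      rw [map_mul, map_pow, map_pow, hW₁φ, h₃, ← pow_add,
        show i + (m - 1 - i) = m - 1 by have := Finset.mem_range.mp hi; omega],
      Finset.sum_const, Finset.card_range, nsmul_eq_mul]
    exact mul_ne_zero hm (pow_ne_zero _ hμ))
  obtain ⟨c, ⟨hcI, hcJ⟩, d, hd, hcd⟩ :=
    Submodule.mem_sup.mp ((Ideal.unit_mul_mem_iff_mem _ hu).mp hmem)
  refine ⟨W₁ - c, ?_, ?_, ?_, ?_⟩
  · rw [map_sub, hW₁φ, show φ c = 0 from hI hcI, sub_zero]
  · rw [show W₁ - c - U₁ = a - c by rw [hW₁]; ring]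
    exact sub_mem ha hcI
  · rw [show W₁ - c - U₂ = (W₁ - U₂) - c by ring]
    exact sub_mem hJ1 hcJ
  · rw [show W₁ - c - U₃ = d by linear_combination -hcd]
    exact hd

variable {q : ℕ} [NeZero q] [Fact q.Prime]

namespace Model

variable {X : Ctx q} {M₁ : ℕ} [NeZero M₁] {G : Model X M₁}

/-- The residue of the norm to the base of a function of one line. -/
theorem red_norm_B₀ (b : Bool) {z : G.splitField} (hz : z ∈ G.LF b) (hu : G.Unit0 z)
    (hN : (Algebra.norm G.B₀ z : G.splitField) ∈ G.V none) :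
    G.red none (Algebra.norm G.B₀ z : G.splitField) =
      G.red (some b) z ^ q * G.red none z ^ q ^ 2 := by
  classical
  choose hm he using fun P : Pair q => G.emb_red P (hu.mem (kindOf P))
  obtain ⟨hN', heN⟩ := G.emb_red (kindPair none) (z := (Algebra.norm G.B₀ z : G.splitField))
    (by rwa [kindOf_kindPair])
  rw [kindOf_kindPair] at heN
  have e1 : (⟨_, hN'⟩ : X.gaussRing) = ∏ P : Pair q, ⟨_, hm P⟩ := Subtype.ext (by
    rw [show ((∏ P : Pair q, ⟨_, hm P⟩ : X.gaussRing) : Ser) = ∏ P : Pair q, G.emb G.one P z from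
      map_prod X.gaussRing.subtype _ _, ← G.coe_norm_B₀]
    show G.emb G.one (kindPair none) _ = _
    rw [G.emb_B₀_eq G.one (kindPair none) (Pair.base q) (Algebra.norm G.B₀ z).2, G.emb_base])
  rw [← heN, e1, map_prod, Finset.prod_congr rfl fun P _ => he P]
  have hline : ∀ P : Pair q,
      G.red (kindOf P) z = if P.line b = none then G.red (some b) z else G.red none z := by
    intro P
    obtain ⟨⟨L, L'⟩, hne⟩ := P
    cases b <;> simp only [Pair.line, Bool.false_eq_true, ↓reduceIte]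
    · cases L' with
      | none =>
        rw [if_pos rfl, show kindOf (⟨(L, none), hne⟩ : Pair q) = some false from by
          simp [kindOf, show L ≠ none from hne]]
      | some c =>
        rw [if_neg (Option.some_ne_none c)]
        cases L with
        | none => exact G.red_LF false hz (hu.mem _) (hu.mem _)
        | some a => simp [kindOf]
    · cases L with
      | none => rw [if_pos rfl]; simp [kindOf]
      | some a =>
        rw [if_neg (Option.some_ne_none a)]
        cases L' with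
        | none =>
          simp only [kindOf, reduceCtorEq, ↓reduceIte]
          exact G.red_LF true hz (hu.mem _) (hu.mem _)
        | some c => simp [kindOf]
  simp only [hline]
  rw [← Finset.prod_fiberwise (Finset.univ : Finset (Pair q)) (fun P : Pair q => P.line b),
    Fintype.prod_option]
  have hf : ∀ L : Line q, (∏ P ∈ (Finset.univ : Finset (Pair q)).filter (fun P => P.line b = L),
      (if P.line b = none then G.red (some b) z else G.red none z)) =
      (if L = none then G.red (some b) z else G.red none z) ^ q := by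
    intro L
    rw [Finset.prod_congr rfl (g := fun _ => if L = none then G.red (some b) z else G.red none z)
      (fun P hP => by rw [(Finset.mem_filter.mp hP).2]), Finset.prod_const]
    congr 1
    exact (Fintype.card_subtype _).symm.trans (card_fibre b L)
  simp only [hf, reduceCtorEq, ↓reduceIte, Finset.prod_const, Finset.card_univ, ZMod.card,
      ← pow_mul,
    pow_two]

namespace Point

variable (P : G.Point G.openChart)

/-- The three components pass through the point. -/
def OnComponents : Prop :=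
  ∀ (κ : Option Bool) (z : G.openChart), G.red κ (z : G.splitField) = 0 → P.φ z = 0

/-- The kernels of the first two components generate the maximal ideal at the point. -/
def Cross : Prop :=
  ∀ z : G.openChart, P.φ z = 0 → ∃ s a b : G.openChart, P.φ s ≠ 0 ∧
    G.red (some true) (a : G.splitField) = 0 ∧ G.red (some false) (b : G.splitField) = 0 ∧
      s * z = a + b

variable {P} (hres : P.OnComponents)

include hres in
theorem inv_mem_V (κ : Option Bool) {s : G.openChart} (hs : P.φ s ≠ 0) :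
    ((s : G.splitField))⁻¹ ∈ G.V κ := by
  have hsV := G.openChart_le_V κ s.2
  have h1 : (G.V κ).valuation (s : G.splitField) = 1 :=
    le_antisymm (((G.V κ).valuation_le_one_iff _).mpr hsV)
      (not_lt.mp fun h => hs (hres κ s ((G.red_eq_zero_iff hsV).mpr h)))
  rw [← (G.V κ).valuation_le_one_iff, map_inv₀, h1, inv_one]

include hres in
theorem loc_mem_V (κ : Option Bool) {z : G.splitField} (hz : z ∈ P.loc) : z ∈ G.V κ := by
  obtain ⟨a, s, hs, h⟩ := hz
  have e : z = (a : G.splitField) * (s : G.splitField)⁻¹ := by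
    rw [← h, mul_inv_cancel_right₀ (P.coe_ne_zero_of_φ_ne hs)]
  rw [e]
  exact mul_mem (G.openChart_le_V κ a.2) (inv_mem_V hres κ hs)

/-- The residue at a component on the local ring. -/
def redLoc (κ : Option Bool) : P.loc →+* LaurentSeries X.k where
  toFun z := G.red κ (z : G.splitField)
  map_one' := G.red_one κ
  map_zero' := G.red_zero κ
  map_mul' z w := G.red_mul (loc_mem_V hres κ z.2) (loc_mem_V hres κ w.2)
  map_add' z w := G.red_add (loc_mem_V hres κ z.2) (loc_mem_V hres κ w.2)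

theorem redLoc_apply (κ : Option Bool) (z : P.loc) :
    redLoc hres κ z = G.red κ (z : G.splitField) := rfl

include hres in
theorem ker_redLoc (κ : Option Bool) : RingHom.ker (redLoc hres κ) ≤ RingHom.ker P.locVal := by
  intro z hz
  rw [RingHom.mem_ker, redLoc_apply] at hz
  obtain ⟨a, s, hs, h⟩ := z.2
  rw [RingHom.mem_ker, P.locVal_eq z hs h, hres κ a ?_, zero_div]
  rw [← h, G.red_mul (loc_mem_V hres κ z.2) (G.openChart_le_V κ s.2), hz, zero_mul]

theorem ker_le_sup (hcross : P.Cross) :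
    RingHom.ker P.locVal ≤
      RingHom.ker (redLoc hres (some true)) ⊔ RingHom.ker (redLoc hres (some false)) := by
  intro z hz
  obtain ⟨a, s, hs, h⟩ := z.2
  rw [RingHom.mem_ker, P.locVal_eq z hs h, div_eq_zero_iff, or_iff_left hs] at hz
  obtain ⟨t, x, y, ht, hx, hy, hxy⟩ := hcross a hz
  have hu : IsUnit (⟨_, P.mem_loc (t * s)⟩ : P.loc) := P.isUnit_of_locVal_ne (by
    rw [P.locVal_coe, map_mul]; exact mul_ne_zero ht hs)
  have e : (⟨_, P.mem_loc (t * s)⟩ : P.loc) * z = ⟨_, P.mem_loc x⟩ + ⟨_, P.mem_loc y⟩ :=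
    Subtype.ext (by
      have h1 := congrArg (fun w : G.openChart => (w : G.splitField)) hxy
      push_cast at h1 ⊢
      linear_combination h1 + (t : G.splitField) * h)
  refine (Ideal.unit_mul_mem_iff_mem _ hu).mp ?_
  rw [e]
  exact Submodule.add_mem_sup hx hy

omit [Fact (Nat.Prime q)] [NeZero q] in
theorem mem_loc_of_pow {z : G.splitField} {n : ℕ} (hn : 0 < n) (h : z ^ n ∈ P.loc) :
    z ∈ P.loc := by
  obtain ⟨a, s, hs, h⟩ := h
  have hzs : z * (s : G.splitField) ∈ G.openChart := by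
    refine mem_intSet_of_pow hn ?_
    obtain ⟨i, rfl⟩ : ∃ i, n = i + 1 := ⟨n - 1, by omega⟩
    rw [mul_pow, pow_succ (s : G.splitField), mul_comm ((s : G.splitField) ^ i), ← mul_assoc, h]
    exact mul_mem a.2 (pow_mem s.2 _)
  exact ⟨⟨_, hzs⟩, s, hs, rfl⟩

include hres in
/-- A root normalised by the norm of `h`: it lies in the local ring, and the residue and the value
of its norm to the base. -/
theorem exists_root_unit (hP : P.OnlyPoint) {m : ℕ} (hm : 0 < m) (β : G.Balanced m) {v : P.loc}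
    (hv : P.locVal v ≠ 0) {h : G.splitField} (hh : G.Unit0 h)
    (hf : β.f = (v : G.splitField) * h ^ m) (b : Bool) :
    ∃ u n : P.loc, P.locVal u ≠ 0 ∧ P.locVal u ^ m = P.locVal v ^ q ∧
      β.resA b = redLoc hres (some b) u * G.red (some b) h ^ q ∧
      β.resB b = redLoc hres none u * (G.red (some !b) h * G.red none h ^ (q - 1)) ∧
      redLoc hres none n = redLoc hres (some b) u ^ q * redLoc hres none u ^ q ^ 2 ∧
      P.locVal n = P.locVal u ^ ((q + 1) * q) ∧
      ∀ κ, redLoc hres κ n = redLoc hres none n := by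
  obtain ⟨hNh, hNA, hNB⟩ := G.red_norm_LF b hh
  obtain ⟨hNv, eNv⟩ := P.norm_LF_val hP b v
  set Nh : G.splitField := (Algebra.norm (G.LF b) h : G.splitField) with hNhdef
  have hU : G.Unit0 (β.root b * Nh⁻¹) := (β.root_unit b).mul hNh.inv
  have hLF : β.root b * Nh⁻¹ ∈ G.LF b :=
    mul_mem (β.root_mem b) (inv_mem (Algebra.norm (G.LF b) h).2)
  have e1 : algebraMap X.O G.splitField (β.κ b) * (β.root b * Nh⁻¹) ^ m =
      (Algebra.norm (G.LF b) (v : G.splitField) : G.splitField) := by
    rw [mul_pow, ← mul_assoc, ← β.norm_eq b, inv_pow, mul_inv_eq_iff_eq_mul₀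
      (pow_ne_zero _ hNh.ne_zero), hNhdef, hf, map_mul, map_pow]
    rfl
  obtain ⟨κ', hκ'⟩ :=
      (X.isUnit_of_resK (c := β.κ b) (by rw [β.κ_one]; exact one_ne_zero)).exists_right_inv
  have e2 : (β.root b * Nh⁻¹) ^ m = algebraMap X.O G.splitField κ' *
      (Algebra.norm (G.LF b) (v : G.splitField) : G.splitField) := by
    rw [← e1, ← mul_assoc, ← map_mul, mul_comm κ', hκ', map_one, one_mul]
  have huL : β.root b * Nh⁻¹ ∈ P.loc :=
    mem_loc_of_pow hm (e2 ▸ mul_mem (P.algebraMap_mem_loc κ') hNv)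
  set u : P.loc := ⟨_, huL⟩ with hu
  have hval : P.locVal u ^ m = P.locVal v ^ q := by
    have h1 : u ^ m = ⟨_, P.algebraMap_mem_loc κ'⟩ * ⟨_, hNv⟩ :=
        Subtype.ext (by push_cast; exact e2)
    have h2 : X.resK κ' = 1 := by
      have := congrArg X.resK hκ'
      rwa [map_mul, β.κ_one, one_mul, map_one] at this
    rw [← map_pow, h1, map_mul, eNv, P.locVal_algebraMap, h2, one_mul]
  obtain ⟨hn, en⟩ := P.norm_B₀_val hP u
  refine ⟨u, ⟨_, hn⟩, fun h0 => ?_, hval, ?_, ?_, ?_, en, fun κ => ?_⟩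
  · rw [h0, zero_pow hm.ne'] at hval
    exact pow_ne_zero q hv hval.symm
  · show G.red (some b) (β.root b) = G.red (some b) (β.root b * Nh⁻¹) * _
    rw [← hNA, ← G.red_mul (hU.mem _) (hNh.mem _), inv_mul_cancel_right₀ hNh.ne_zero]
  · show G.red none (β.root b) = G.red none (β.root b * Nh⁻¹) * _
    rw [← hNB, ← G.red_mul (hU.mem _) (hNh.mem _), inv_mul_cancel_right₀ hNh.ne_zero]
  · exact red_norm_B₀ b hLF hU (loc_mem_V hres none hn)
  · exact (G.red_B₀ (Algebra.norm G.B₀ (u : G.splitField)).2 (loc_mem_V hres none hn) κ).2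

include hres in
/-- Lifts of the roots with a common value. -/
theorem exists_lifts (hP : P.OnlyPoint) {m : ℕ} (hm : 0 < m) (β : G.Balanced m) {v : P.loc}
    (hv : P.locVal v ≠ 0) {h : G.splitField} (hh : G.Unit0 h)
    (hf : β.f = (v : G.splitField) * h ^ m) :
    ∃ (U : Option Bool → P.loc) (μ : X.k), μ ≠ 0 ∧ ∀ κ, P.locVal (U κ) = μ ∧
      β.groot κ = redLoc hres κ (U κ) * G.red κ h ^ gluePow q := by
  choose u n hu0 hum hA hB hn hnv hnκ using fun b => exists_root_unit hres hP hm β hv hh hf b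
  set d := (q - 1) * (q + 1) with hd
  set μt := P.locVal (u true) with hμt
  set μf := P.locVal (u false) with hμf
  obtain ⟨z, hz, hz0⟩ := β.exists_zeta hm
  obtain ⟨zO, hzO⟩ := X.resK_surjective z
  obtain ⟨zO', hzO'⟩ := X.resK_surjective z⁻¹
  set Z : P.loc := ⟨_, P.algebraMap_mem_loc zO⟩ with hZ
  set Z' : P.loc := ⟨_, P.algebraMap_mem_loc zO'⟩ with hZ'
  have hZv : P.locVal Z = z := (P.locVal_algebraMap zO).trans hzO
  have hZ'v : P.locVal Z' = z⁻¹ := (P.locVal_algebraMap zO').trans hzO'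
  have hZr : ∀ κ, redLoc hres κ Z = HahnSeries.C z := fun κ => by
    rw [redLoc_apply, G.red_algebraMap, hzO]
  have hZ'r : ∀ κ, redLoc hres κ Z' = HahnSeries.C z⁻¹ := fun κ => by
    rw [redLoc_apply, G.red_algebraMap, hzO']
  have hnu : ∀ b, P.locVal (n b) ≠ 0 := fun b => by rw [hnv]; exact pow_ne_zero _ (hu0 b)
  obtain ⟨w, hw⟩ := (P.isUnit_of_locVal_ne (hnu false)).exists_right_inv
  have hwv : P.locVal w = (μf ^ ((q + 1) * q))⁻¹ := by
    refine eq_inv_of_mul_eq_one_right ?_
    rw [hμf, ← hnv, ← map_mul, hw, map_one]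
  have hwr : redLoc hres none w = (redLoc hres none (n false))⁻¹ := by
    refine eq_inv_of_mul_eq_one_right ?_
    rw [← map_mul, hw, map_one]
  have hh0 : ∀ κ, G.red κ h ≠ 0 := hh.red_ne_zero
  have hnr0 : redLoc hres none (n false) ≠ 0 := fun h0 =>
    hnu false (ker_redLoc hres none h0)
  have hζ : β.zeta = redLoc hres none (n true) / redLoc hres none (n false) := by
    rw [Balanced.zeta, hA, hA, hB, hB, hn, hn, Bool.not_true, Bool.not_false,
      show ∀ a b c e : LaurentSeries X.k,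
          (a * c ^ q) ^ q * (b * (e * G.red none h ^ (q - 1))) ^ q ^ 2
        = a ^ q * b ^ q ^ 2 * ((c * e) ^ q ^ 2 * G.red none h ^ ((q - 1) * q ^ 2)) from
        fun a b c e => by ring,
      show ∀ a b c e : LaurentSeries X.k,
          (a * c ^ q) ^ q * (b * (e * G.red none h ^ (q - 1))) ^ q ^ 2
        = a ^ q * b ^ q ^ 2 * ((c * e) ^ q ^ 2 * G.red none h ^ ((q - 1) * q ^ 2)) from
        fun a b c e => by ring, mul_comm (G.red (some true) h)]
    exact mul_div_mul_right _ _ (mul_ne_zero (pow_ne_zero _ (mul_ne_zero (hh0 _) (hh0 _)))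
      (pow_ne_zero _ (hh0 _)))
  have hzv : z = μt ^ ((q + 1) * q) / μf ^ ((q + 1) * q) := by
    have h1 : redLoc hres none (n true - Z * n false) = 0 := by
      rw [map_sub, map_mul, hZr, ← hz, hζ, div_mul_cancel₀ _ hnr0, sub_self]
    have h2 : P.locVal (n true - Z * n false) = 0 := ker_redLoc hres none h1
    rw [map_sub, map_mul, hnv, hnv, hZv, sub_eq_zero] at h2
    rw [eq_div_iff (pow_ne_zero _ (hu0 false))]
    exact h2.symm
  let U : Option Bool → P.loc
    | some true => u true ^ (q * d)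
    | some false => Z ^ (q - 1) * u false ^ (q * d)
    | none => Z' * (u true ^ q ^ 2 * u false ^ q ^ 2 * w) ^ (q + 1)
  refine ⟨U, μt ^ (q * d), pow_ne_zero _ (hu0 true), ?_⟩
  have hq1 : 1 ≤ q := (Fact.out : q.Prime).one_le
  rintro (_ | _ | _)
  · refine ⟨?_, ?_⟩
    · show P.locVal (Z' * (u true ^ q ^ 2 * u false ^ q ^ 2 * w) ^ (q + 1)) = _
      rw [map_mul, map_pow, map_mul, map_mul, map_pow, map_pow, hZ'v, hwv, ← hμt, ← hμf, hzv,
        inv_div, hd]
      have e1 : μt ^ (q ^ 2 * (q + 1)) = μt ^ (q * ((q - 1) * (q + 1))) * μt ^ ((q + 1) * q) := by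
        rw [← pow_add]
        congr 1
        obtain ⟨r, rfl⟩ := Nat.exists_eq_add_of_le hq1
        rw [Nat.add_sub_cancel_left]
        ring
      have e2 : μf ^ (q ^ 2 * (q + 1)) * μf ^ ((q + 1) * q) = μf ^ ((q + 1) * q * (q + 1)) := by
        rw [← pow_add]; congr 1; ring
      have ht : μt ^ ((q + 1) * q) ≠ 0 := pow_ne_zero _ (hu0 true)
      have hf0 : μf ≠ 0 := hu0 false
      rw [mul_pow, mul_pow, ← pow_mul, ← pow_mul, inv_pow, ← pow_mul, e1]
      field_simp
      linear_combination (μt ^ (q * ((q - 1) * (q + 1)))) * e2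
    · show β.zeta⁻¹ * (β.resB true ^ q ^ 2 * (β.resA false ^ q)⁻¹) ^ (q + 1) =
        redLoc hres none (Z' * (u true ^ q ^ 2 * u false ^ q ^ 2 * w) ^ (q + 1)) * _
      rw [map_mul, hZ'r, map_inv₀, ← hz, map_pow, map_mul, map_mul, map_pow, map_pow, hwr, hn,
        hB, hA, Bool.not_true, mul_assoc]
      congr 1
      rw [show gluePow q = q ^ 2 * (q - 1) * (q + 1) by rw [gluePow]; ring, pow_mul, ← mul_pow]
      congr 1
      have hb : redLoc hres none (u false) ^ q ^ 2 ≠ 0 := pow_ne_zero _ fun h0 =>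
        hu0 false (ker_redLoc hres none h0)
      have ha : redLoc hres (some false) (u false) ≠ 0 := fun h0 =>
        hu0 false (ker_redLoc hres (some false) h0)
      have := hh0 (some false)
      field_simp
      ring
  · refine ⟨?_, ?_⟩
    · show P.locVal (Z ^ (q - 1) * u false ^ (q * d)) = _
      rw [map_mul, map_pow, map_pow, hZv, ← hμf, hzv, div_pow, ← pow_mul, ← pow_mul, hd,
        show (q + 1) * q * (q - 1) = q * ((q - 1) * (q + 1)) by ring,
        div_mul_cancel₀ _ (pow_ne_zero _ (hu0 false))]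
    · show β.zeta ^ (q - 1) * (β.resA false ^ q) ^ ((q - 1) * (q + 1)) =
        redLoc hres (some false) (Z ^ (q - 1) * u false ^ (q * d)) * _
      rw [map_mul, map_pow, hZr, ← hz, map_pow, hA, hd, gluePow]
      ring
  · refine ⟨?_, ?_⟩
    · show P.locVal (u true ^ (q * d)) = _
      rw [map_pow]
    · show (β.resA true ^ q) ^ ((q - 1) * (q + 1)) = redLoc hres (some true) (u true ^ (q * d)) * _
      rw [map_pow, hA, hd, gluePow]
      ring

include hres in
/-- **Gluing at a point on the three components.** -/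
theorem glueOn_of_super (hP : P.OnlyPoint) (hcross : P.Cross) {m : ℕ} (hm : 0 < m) (hq : ¬ q ∣ m)
    (β : G.Balanced m)
    (hfac : ∃ (a b : G.openChart) (h : G.splitField), P.φ a ≠ 0 ∧ P.φ b ≠ 0 ∧ G.Unit0 h ∧
      β.f * (b : G.splitField) = (a : G.splitField) * h ^ m) (j : ℕ) :
    GlueOn β j P.φ := by
  obtain ⟨a, b, h, ha, hb, hh, e⟩ := hfac
  have hb0 := P.coe_ne_zero_of_φ_ne hb
  have hh0 : h ≠ 0 := hh.ne_zero
  have hvmem : β.f / h ^ m ∈ P.loc :=
    ⟨a, b, hb, by rw [div_mul_eq_mul_div, e, mul_div_cancel_right₀ _ (pow_ne_zero _ hh0)]⟩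
  set v : P.loc := ⟨_, hvmem⟩ with hvdef
  have hfv : β.f = (v : G.splitField) * h ^ m := (div_mul_cancel₀ _ (pow_ne_zero _ hh0)).symm
  have hv : P.locVal v ≠ 0 := by
    rw [P.locVal_eq v hb (by
      show β.f / h ^ m * _ = _
      rw [div_mul_eq_mul_div, e, mul_div_cancel_right₀ _ (pow_ne_zero _ hh0)])]
    exact div_ne_zero ha hb
  obtain ⟨U, μ, hμ, hU⟩ := exists_lifts hres hP hm β hv hh hfv
  set V₀ : P.loc := v ^ gluePow q with hV₀
  have hpow : ∀ κ, U κ ^ m - V₀ ∈ RingHom.ker (redLoc hres κ) := by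
    intro κ
    rw [RingHom.mem_ker, map_sub, sub_eq_zero]
    refine mul_right_cancel₀ (pow_ne_zero (gluePow q * m) (hh.red_ne_zero κ)) ?_
    have h1 := β.groot_pow κ
    rw [(hU κ).2, mul_pow, ← pow_mul, G.red_pow (β.unit.mem κ), hfv,
      G.red_mul (loc_mem_V hres κ v.2) ((hh.pow m).mem κ), mul_pow, G.red_pow (hh.mem κ),
      ← pow_mul, mul_comm m] at h1
    rw [map_pow, hV₀, map_pow]
    exact h1
  have hmk : (m : X.k) ≠ 0 := fun h0 => by
    have : CharP X.k q := (CharP.charP_iff_prime_eq_zero X.prime).mpr X.natCast_k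
    exact hq ((CharP.cast_eq_zero_iff X.k q m).mp h0)
  obtain ⟨W, hWμ, h1, h2, h3⟩ := exists_lift_three P.locVal (fun _ => P.isUnit_of_locVal_ne)
    (ker_redLoc hres (some true)) (ker_le_sup hres hcross) hmk hμ (hU _).1 (hU _).1 (hU _).1
    (hpow (some true)) (hpow (some false)) (hpow none)
  have hWκ : ∀ κ, redLoc hres κ W = redLoc hres κ (U κ) := fun κ => by
    rcases κ with _ | _ | _
    · exact sub_eq_zero.mp ((map_sub _ _ _).symm.trans h3)
    · exact sub_eq_zero.mp ((map_sub _ _ _).symm.trans h2)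
    · exact sub_eq_zero.mp ((map_sub _ _ _).symm.trans h1)
  obtain ⟨r, hr⟩ := (P.isUnit_of_locVal_ne (hWμ ▸ hμ : P.locVal W ≠ 0)).exists_right_inv
  obtain ⟨c, s, hs, hcs⟩ := ((v ^ gluePow q * r ^ m) ^ j : P.loc).2
  push_cast at hcs
  set H := h ^ gluePow q with hH
  have hH0 : H ≠ 0 := pow_ne_zero _ hh0
  refine ⟨s, hs, (s : G.splitField) * ((r : G.splitField) / H) ^ j, ?_, fun κ => ?_⟩
  · obtain ⟨i, hi⟩ : ∃ i, m = i + 1 := ⟨m - 1, by omega⟩
    have e1 : ((s : G.splitField) * ((r : G.splitField) / H) ^ j) ^ m * (β.f ^ gluePow q) ^ j =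
        (s : G.splitField) ^ i * c := by
      rw [← hcs, hfv, mul_pow, ← pow_mul, hH, div_pow, mul_pow, mul_pow, mul_pow,
        show (s : G.splitField) ^ m = (s : G.splitField) ^ i * s by rw [← pow_succ, hi]]
      simp only [← pow_mul]
      field_simp
      ring
    rw [e1]
    exact mul_mem (pow_mem s.2 _) c.2
  · have hHu : G.Unit0 H := hh.pow _
    have hrV : (r : G.splitField) ∈ G.V κ := loc_mem_V hres κ r.2
    have hquot : (r : G.splitField) / H ∈ G.V κ := by
      rw [div_eq_mul_inv]; exact mul_mem hrV (hHu.inv_mem κ)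
    rw [G.red_mul (G.openChart_le_V κ s.2) (pow_mem hquot j), G.red_pow hquot, mul_assoc,
      ← mul_pow, (hU κ).2, ← hWκ κ]
    have e2 : G.red κ ((r : G.splitField) / H) * G.red κ h ^ gluePow q = redLoc hres κ r := by
      rw [← G.red_pow (hh.mem κ), ← G.red_mul hquot (hHu.mem κ), div_mul_cancel₀ _ hH0]
      rfl
    rw [mul_left_comm, e2, ← map_mul, hr, map_one, one_pow, mul_one]

end Point

/-- Supersingular gluing from the structure of the supersingular points. -/
theorem glueSupersingular_of (G : Model X M₁)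
    (hpt : ∀ P : G.Point G.openChart, G.Supersingular P →
      P.OnlyPoint ∧ P.OnComponents ∧ P.Cross)
    (hfac : ∀ (m : ℕ), 0 < m → ¬ q ∣ m → ∀ (β : G.Balanced m) (P : G.Point G.openChart),
      G.Supersingular P → ∃ (a b : G.openChart) (h : G.splitField),
        P.φ a ≠ 0 ∧ P.φ b ≠ 0 ∧ G.Unit0 h ∧ β.f * (b : G.splitField) = (a : G.splitField) * h ^ m) :
    G.GlueSupersingular := fun m hm hq β P hP j _ => by
  obtain ⟨h1, h2, h3⟩ := hpt P hP
  exact Point.glueOn_of_super h2 h1 h3 hm hq β (hfac m hm hq β P hP) j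

end Model

end FLTAgent.CarayolSquare
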