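import Fermat.Agent.CarayolSquare.Supersingular.SuperLocal
import Fermat.Agent.CarayolSquare.Supersingular.SuperGlue

/-!
# Gluing at supersingular points

`glueSupersingular`: roots glue at the supersingular points of every model, one of the three
inputs of `coreInput_of_glue`.
-/

set_option autoImplicit false

noncomputable section

namespace FLTAgent.CarayolSquare

variable {q : ℕ} [NeZero q] [Fact q.Prime]

namespace Model

variable {X : Ctx q} {M₁ : ℕ} [NeZero M₁]

/-- **Gluing at the supersingular points.** -/
theorem glueSupersingular (G : Model X M₁) : G.GlueSupersingular :=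
  glueSupersingular_of G
    (fun _ hP => ⟨G.ss_base hP, G.ss_res_ker hP, G.ss_cross hP⟩)
    fun _ hm _ β _ hP => G.ss_unit_mul_pow hP hm β.unit fun W hW _ _ => β.horiz W hW

end Model

end FLTAgent.CarayolSquare
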