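import Fermat.Agent.CarayolSquare.Supersingular.Kronecker
import Fermat.Agent.CarayolSquare.Geometry.Balanced

/-!
# Differentiating the Kronecker congruence

`supersingular_value`: at a point where the reduction of the weight zero form `Δ (q τ) / Δ` of the
finite lines vanishes, `h` is in `𝔽_(q²)` and the Kronecker quotient is a unit.
-/

set_option autoImplicit false

noncomputable section

open ModularCurve Polynomial

namespace FLTAgent.CarayolSquare

local notation "Qbar" => AlgebraicClosure ℚ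

variable {q : ℕ}

variable [NeZero q] [Fact q.Prime]

namespace Ctx

variable (X : Ctx q) (M₁ : ℕ) [NeZero M₁]

omit [NeZero q] [Fact (Nat.Prime q)] in
/-- Differentiating `(u - w ^ q) (u ^ q - w) + q K = 0` and dividing by `q`. -/
theorem divide_theta (u w K T : X.intSer)
    (hroot : (u - w ^ q) * (u ^ q - w) + (q : X.intSer) * K = 0)
    (hw : ThetaOp.thetaL (w : Ser) = (q : Ser) * (T : Ser)) :
    (u - w ^ q) ^ 2 * (u ^ (q - 1) * X.thetaI u - T) + (u - w ^ q) * X.thetaI K -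
      X.thetaI (u - w ^ q) * K = 0 := by
  have hq : (q : Ser) ≠ 0 := by
    rw [← map_natCast (HahnSeries.C : Qbar →+* Ser)]
    exact (map_ne_zero_iff _ HahnSeries.C_injective).mpr X.q_ne_zero
  obtain ⟨v, hv⟩ : ∃ v : X.intSer, v = u - w ^ q := ⟨_, rfl⟩
  rw [← hv] at hroot ⊢
  have hS : (v : Ser) * ((u : Ser) ^ q - (w : Ser)) + (q : Ser) * (K : Ser) = 0 := by
    have := congrArg (fun s : X.intSer => (s : Ser)) hroot
    push_cast at this
    exact this
  have hθq : ThetaOp.thetaL (q : Ser) = 0 := by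
    rw [← map_natCast (HahnSeries.C : Qbar →+* Ser), ThetaOp.thetaL_C]
  have hd := congrArg ThetaOp.thetaL hS
  rw [map_add, ThetaOp.thetaL_mul, ThetaOp.thetaL_mul, hθq, zero_mul, zero_add, map_zero,
    map_sub ThetaOp.thetaL ((u : Ser) ^ q), ThetaOp.thetaL_pow, hw] at hd
  refine Subtype.val_injective (mul_left_cancel₀ hq ?_)
  push_cast
  show (q : Ser) * ((v : Ser) ^ 2 * ((u : Ser) ^ (q - 1) * ThetaOp.thetaL (u : Ser) - (T : Ser)) +
    (v : Ser) * ThetaOp.thetaL (K : Ser) - ThetaOp.thetaL (v : Ser) * (K : Ser)) = (q : Ser) * 0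
  linear_combination (v : Ser) * hd - ThetaOp.thetaL (v : Ser) * hS

end Ctx

namespace Model

variable {X : Ctx q} {M₁ : ℕ} [NeZero M₁] (G : Model X M₁)

theorem redC_hasse : G.redC G.hasse * X.discBar M₁ ^ (q - 1) = 1 := by
  have hc : (G.hasse : Ser) ∈ X.intSer := G.coe_mem_intSer _
  rw [← sub_eq_zero, redC_apply, Ctx.discBar, ← map_pow, ← map_mul, ← map_one X.redS, ← map_sub,
    X.redS_eq_zero_iff]
  exact G.hasse_spec

theorem hasse_mem_hA : G.hasse ∈ G.hA := by
  have h := G.hasse_mem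
  rw [hRing, show ({(G.h : Ser), (G.Dinv : Ser)} : Set Ser) = G.C.val '' {G.h, G.Dinv} by
    rw [Set.image_pair]; rfl, ← AlgHom.map_adjoin] at h
  obtain ⟨c, hc, e⟩ := Subalgebra.mem_map.mp h
  rwa [show c = G.hasse from Subtype.ext e] at hc

theorem redC_hasse_pow : G.redC G.hasse ^ q = qExpand X.k q (G.redC G.hasse) := by
  have h0 : (X.discBar M₁ ^ (q - 1)) ^ q ≠ 0 := pow_ne_zero _ (right_ne_zero_of_mul
    (G.redC_hasse.trans_ne one_ne_zero))
  refine mul_right_cancel₀ h0 ?_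
  rw [← mul_pow, G.redC_hasse, one_pow, ← pow_mul, mul_comm (q - 1), pow_mul, X.discBar_pow,
    ← map_pow, ← map_mul, G.redC_hasse, map_one]

/-- `θ h` modulo `q`. -/
def thbar : LaurentSeries X.k := ThetaOp.thetaL G.hbar

omit [NeZero q] [Fact (Nat.Prime q)] in
theorem thbar_spec : ∃ R R' : G.C, R ∈ G.hA ∧ R' ∈ G.hA ∧ R * R' = 1 ∧
    G.thbar ^ 6 = G.redC R * X.discBar M₁ := by
  obtain ⟨R, hR, R', hR', hRR, hθ⟩ := G.theta
  refine ⟨R, R', hR, hR', hRR, ?_⟩
  rw [thbar, hbar, redC_apply, ← X.redS_thetaI, ← map_pow, redC_apply, Ctx.discBar, ← map_mul]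
  exact congrArg _ (Subtype.ext hθ)

omit [NeZero q] [Fact (Nat.Prime q)] in
theorem thbar_ne_zero : G.thbar ≠ 0 := by
  obtain ⟨R, R', -, -, hRR, h⟩ := G.thbar_spec
  have hR : G.redC R ≠ 0 := fun h0 => by
    have := congrArg G.redC hRR
    rw [map_mul, h0, zero_mul, map_one] at this
    exact zero_ne_one this
  intro h0
  rw [h0, zero_pow (by norm_num), eq_comm] at h
  exact mul_ne_zero hR (left_ne_zero_of_mul ((X.discBar_mul M₁).trans_ne one_ne_zero)) h

theorem thbar_pow : G.thbar ^ q = qExpand X.k q G.thbar := by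
  have := X.charP_k
  refine ThetaOp.pow_char_of_fixed q fun n => ?_
  have hh : G.hbar.coeff n ^ q = G.hbar.coeff n := by
    rw [hbar, redC_apply, Ctx.coeff_redS, ← map_pow, ← sub_eq_zero, ← map_sub]
    exact (IsLocalRing.residue_eq_zero_iff _).mpr ((X.A.valuation_lt_one_iff _).mpr (G.h_rat n))
  rw [thbar, ThetaOp.thetaL_coeff, mul_pow, hh, ← frobenius_def, map_intCast]

/-- The value of the Kronecker quotient along the translate by the identity. -/
def Kval : LaurentSeries X.k := G.Kpol.eval₂ ((qExpand X.k q).comp G.redC) G.hbar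

omit [Fact (Nat.Prime q)] in
theorem redS_up_theta (T : X.intSer) (hT : (T : Ser) = X.up (ThetaOp.thetaL (G.h : Ser))) :
    X.redS T = qExpand X.k q G.thbar := by
  obtain ⟨x, hx⟩ := T
  let s : X.intSer := ⟨(G.h : Ser), X.coeffInO_intSer (G.coeff_mem _ G.h.2)⟩
  have h : G.thbar = X.redS (X.thetaI s) := (X.redS_thetaI s).symm
  rw [h]
  have hT' : x = qExpand Qbar q ((X.thetaI s : X.intSer) : Ser) := hT
  subst hT'
  exact X.redS_qExpand q (X.thetaI s) hx

/-- The derivative of the Kronecker congruence, modulo `q`. -/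
theorem kronecker_theta :
    (G.hbar - G.hbar ^ q ^ 2) ^ 2 * (G.hbar ^ (q - 1) * G.thbar - G.thbar ^ q) +
      (G.hbar - G.hbar ^ q ^ 2) * ThetaOp.thetaL G.Kval - G.thbar * G.Kval = 0 := by
  have := X.charP_serk
  set u : X.intSer := G.subI (some 0) G.h with hu
  set w : X.intSer := G.upI G.h with hw
  set K : X.intSer := G.Kpol.eval₂ G.upI u with hK
  have hroot : (u - w ^ q) * (u ^ q - w) + (q : X.intSer) * K = 0 := by
    have h := congrArg (Polynomial.eval u) G.map_Phi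
    rw [Polynomial.eval_map, Polynomial.eval_prod, Finset.prod_eq_zero (Finset.mem_univ (some 0))
      (by rw [Polynomial.eval_sub, Polynomial.eval_X, Polynomial.eval_C, hu, sub_self])] at h
    rw [← h, Polynomial.eval₂_add, Polynomial.eval₂_mul, Polynomial.eval₂_C, map_natCast, kronecker,
      Polynomial.eval₂_mul, Polynomial.eval₂_sub, Polynomial.eval₂_sub, Polynomial.eval₂_X,
      Polynomial.eval₂_X_pow, Polynomial.eval₂_C, Polynomial.eval₂_C, map_pow]
  have huS : (u : Ser) = (G.h : Ser) := G.subI_zero G.h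
  have hθw : ThetaOp.thetaL (w : Ser) = (q : Ser) * X.up (ThetaOp.thetaL (G.h : Ser)) := by
    rw [hw, coe_upI]
    exact (ThetaOp.thetaL_qExpand q _).trans (by rw [map_natCast]; rfl)
  have hth : X.up (ThetaOp.thetaL (G.h : Ser)) ∈ X.intSer := by
    have hmem : ThetaOp.thetaL (G.h : Ser) ∈ X.intSer :=
      X.thetaL_mem_intSer (X.coeffInO_intSer (G.coeff_mem _ G.h.2))
    intro n
    by_cases hn : (q : ℤ) ∣ n
    · obtain ⟨i, rfl⟩ := hn
      show (qExpand Qbar q _).coeff _ ∈ X.A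
      rw [qExpand_coeff_mul]
      exact hmem i
    · show (qExpand Qbar q _).coeff _ ∈ X.A
      rw [qExpand_coeff_of_not_dvd _ _ hn]
      exact X.A.zero_mem
  set T : X.intSer := ⟨_, hth⟩ with hT
  have hθw' : ThetaOp.thetaL (w : Ser) = (q : Ser) * (T : Ser) := hθw
  have hTu : (T : Ser) = X.up (ThetaOp.thetaL (G.h : Ser)) := rfl
  -- differentiate and divide by `q`
  have key : (u - w ^ q) ^ 2 * (u ^ (q - 1) * X.thetaI u - T) + (u - w ^ q) * X.thetaI K -
      X.thetaI (u - w ^ q) * K = 0 :=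
    Ctx.divide_theta X u w K T hroot hθw'
  have hr := congrArg X.redS key
  simp only [map_add, map_sub, map_mul, map_pow, map_zero, X.redS_thetaI] at hr
  have e1 : X.redS u = G.hbar := G.redS_subI_some 0 G.h
  have e2 : X.redS w = qExpand X.k q G.hbar := G.redS_upI G.h
  have e3 : X.redS T = qExpand X.k q G.thbar := G.redS_up_theta T hTu
  have e4 : X.redS K = G.Kval := by
    rw [hK, Polynomial.hom_eval₂, e1]
    exact congrArg (fun φ => G.Kpol.eval₂ φ G.hbar) (RingHom.ext fun c => G.redS_upI c)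
  have e5 : ThetaOp.thetaL ((qExpand X.k q G.hbar) ^ q) = 0 := by
    rw [ThetaOp.thetaL_pow, CharP.cast_eq_zero, zero_mul, zero_mul]
  rw [e1, e2, e3, e4, e5, sub_zero, ← G.thbar_pow, ← G.hbar_pow, ← pow_mul, ← pow_two] at hr
  exact hr

omit [NeZero q] [Fact (Nat.Prime q)] in
theorem derivative_g :
    derivative ((Polynomial.X : X.k[X]) - Polynomial.X ^ q ^ 2) = 1 := by
  have := X.charP_k
  rw [derivative_sub, derivative_X, derivative_X_pow]
  rw [show ((q ^ 2 : ℕ) : X.k) = 0 by rw [Nat.cast_pow, X.natCast_k]; simp]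
  simp

omit [Fact (Nat.Prime q)] in
theorem exists_Kclear : ∃ (N : ℕ) (P : X.k[X]),
    G.Kval * G.evh (expand X.k q (G.Dbar ^ N)) = G.evh P ∧
    ∀ (ψ : G.C →+* X.k), (∀ o, ψ (algebraMap X.O G.C o) = X.resK o) → ∀ c : X.k, c ^ q = ψ G.h →
      P.eval c = G.Kpol.eval₂ ψ c * G.Dbar.eval (ψ G.h) ^ N := by
  classical
  choose N p hp using fun n : ℕ => G.redC_clear (G.hasCoeffs_Kpol n)
  set d := G.Kpol.natDegree + 1
  set Nt := ∑ n ∈ Finset.range d, N n with hNt
  have hle : ∀ n ∈ Finset.range d, N n + (Nt - N n) = Nt := fun n hn =>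
    Nat.add_sub_cancel' (Finset.single_le_sum (fun _ _ => Nat.zero_le _) hn)
  refine ⟨Nt, ∑ n ∈ Finset.range d, expand X.k q (p n * G.Dbar ^ (Nt - N n)) * Polynomial.X ^ n,
    ?_, fun ψ hψ c hc => ?_⟩
  · rw [Kval, Polynomial.eval₂_eq_sum_range, Finset.sum_mul, map_sum]
    refine Finset.sum_congr rfl fun n hn => ?_
    rw [map_mul, map_pow G.evh Polynomial.X, show G.evh Polynomial.X = G.hbar from eval₂_X _ _,
      ← G.qExpand_evh, ← G.qExpand_evh, map_mul G.evh, ← hp n, RingHom.comp_apply]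
    rw [mul_assoc (G.redC _) (G.evh _) (G.evh _), ← map_mul G.evh, ← pow_add, hle n hn, map_mul]
    ring
  · rw [Polynomial.eval_finsetSum, Polynomial.eval₂_eq_sum_range, Finset.sum_mul]
    refine Finset.sum_congr rfl fun n hn => ?_
    have hv := G.value_eq ψ hψ (hp n)
    rw [eval_pow] at hv
    rw [eval_mul, eval_pow, eval_X, expand_eval, eval_mul, eval_pow, hc, ← hv, mul_assoc (ψ _),
      ← pow_add, hle n hn]
    ring

/-- **Supersingular values.** -/
theorem supersingular_value (ψ : G.C →+* X.k) (hψ : ∀ o, ψ (algebraMap X.O G.C o) = X.resK o)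
    (ha : ψ G.hasse = 0) :
    ψ G.h ^ q ^ 2 = ψ G.h ∧ G.Kpol.eval₂ ψ (ψ G.h ^ q) ≠ 0 := by
  have := X.charP_k
  obtain ⟨c, hc⟩ := IsAlgClosed.exists_pow_nat_eq (ψ G.h) X.prime.pos
  have hD : G.Dbar.eval c ≠ 0 := G.Dbar_root ψ hψ hc
  have hD' : G.Dbar.eval (ψ G.h) ≠ 0 := G.psi_Dbar ψ hψ
  obtain ⟨Na, α, hα⟩ := G.redC_clear G.hasse_mem_hA
  obtain ⟨R, R', hRA, hRA', hRR, hθ6⟩ := G.thbar_spec
  obtain ⟨Nr, ρ, hρ⟩ := G.redC_clear hRA
  obtain ⟨Nr', ρ', hρ'⟩ := G.redC_clear hRA'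
  obtain ⟨Nk, P, hP, hPv⟩ := G.exists_Kclear
  -- values of the two polynomials at the root
  have hρc : ρ.eval c ≠ 0 := by
    have h : ρ * ρ' = G.Dbar ^ Nr * G.Dbar ^ Nr' := G.evh_injective (by
      rw [map_mul, map_mul, ← hρ, ← hρ', mul_mul_mul_comm, ← map_mul G.redC, hRR, map_one, one_mul])
    intro h0
    have := congrArg (Polynomial.eval c) h
    rw [eval_mul, h0, zero_mul, eval_mul, eval_pow, eval_pow] at this
    exact mul_ne_zero (pow_ne_zero _ hD) (pow_ne_zero _ hD) this.symm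
  have hαc : α.eval c = 0 := by
    have h0 : α.eval (ψ G.h) = 0 := by rw [← G.value_eq ψ hψ hα, ha, zero_mul]
    have h : α ^ q * expand X.k q (G.Dbar ^ Na) = expand X.k q α * (G.Dbar ^ Na) ^ q :=
      G.evh_injective (by
        rw [map_mul, map_mul, map_pow G.evh α, map_pow G.evh (G.Dbar ^ Na), ← G.qExpand_evh,
          ← G.qExpand_evh, ← hα, mul_pow, map_mul, G.redC_hasse_pow]
        ring)
    have h1 := congrArg (Polynomial.eval c) h
    rw [eval_mul, eval_mul, expand_eval, expand_eval, hc, h0, zero_mul, eval_pow, eval_pow,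
      mul_eq_zero] at h1
    exact h1.elim (fun h2 => eq_zero_of_pow_eq_zero h2) fun h2 => absurd h2 (pow_ne_zero _ hD')
  -- the identity
  set g : X.k[X] := Polynomial.X - Polynomial.X ^ q ^ 2 with hg
  set E := expand X.k q (G.Dbar ^ Nk) with hE
  set num := g ^ 2 * Polynomial.X ^ (q - 1) * E + g * derivative P - P with hnum
  have hX : G.evh Polynomial.X = G.hbar := eval₂_X _ _
  have hgh : G.evh g = G.hbar - G.hbar ^ q ^ 2 := by rw [hg, map_sub, map_pow, hX]
  have hθE : ThetaOp.thetaL (G.evh E) = 0 := by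
    show ThetaOp.thetaL (E.eval₂ HahnSeries.C G.hbar) = 0
    have hq : (q : X.k[X]) = 0 := by rw [← Polynomial.C_eq_natCast, X.natCast_k, map_zero]
    rw [ThetaOp.thetaL_eval, hE, derivative_expand, hq, zero_mul, mul_zero, eval₂_zero, zero_mul]
  have hθP : ThetaOp.thetaL G.Kval * G.evh E = G.evh (derivative P) * G.thbar := by
    have h := congrArg ThetaOp.thetaL hP
    rw [ThetaOp.thetaL_mul, hθE, mul_zero, add_zero] at h
    rw [h]
    exact ThetaOp.thetaL_eval G.hbar P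
  have hid : G.evh num = G.evh (g ^ 2 * E) * G.thbar ^ (q - 1) := by
    refine mul_right_cancel₀ G.thbar_ne_zero ?_
    rw [mul_assoc, ← pow_succ, Nat.sub_add_cancel X.prime.one_le]
    have hk := congrArg (fun s => s * G.evh E) G.kronecker_theta
    simp only [zero_mul] at hk
    simp only [hnum, map_sub, map_add, map_mul, map_pow, hX, hgh]
    rw [hgh] at *
    linear_combination hk - (G.hbar - G.hbar ^ q ^ 2) * hθP + G.thbar * hP
  have hpoly : num ^ 6 * α * (G.Dbar ^ Nr) ^ (q - 1) =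
      (g ^ 2 * E) ^ 6 * ρ ^ (q - 1) * G.Dbar ^ Na := by
    refine G.evh_injective ?_
    rw [map_mul G.evh _ ((G.Dbar ^ Nr) ^ (q - 1)), map_mul G.evh (num ^ 6) α,
      map_pow G.evh num, hid, map_mul G.evh _ (G.Dbar ^ Na), map_mul G.evh _ (ρ ^ (q - 1)),
      map_pow G.evh (g ^ 2 * E), ← hα, map_pow G.evh ρ, ← hρ, map_pow G.evh (G.Dbar ^ Nr),
      mul_pow, mul_pow, ← pow_mul G.thbar, mul_comm (q - 1) 6, pow_mul G.thbar, hθ6, mul_pow]
    have ha1 := G.redC_hasse
    linear_combination (G.evh (g ^ 2 * E) ^ 6 * G.redC R ^ (q - 1) *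
      G.evh (G.Dbar ^ Na) * G.evh (G.Dbar ^ Nr) ^ (q - 1)) * ha1
  have hEc : E.eval c ≠ 0 := by rw [hE, expand_eval, hc, eval_pow]; exact pow_ne_zero _ hD'
  have hgc : g.eval c = 0 := by
    have := congrArg (Polynomial.eval c) hpoly
    simp only [eval_mul, eval_pow, hαc, mul_zero, zero_mul] at this
    by_contra hne
    exact mul_ne_zero (mul_ne_zero (pow_ne_zero _ (mul_ne_zero (pow_ne_zero _ hne) hEc))
      (pow_ne_zero _ hρc)) (pow_ne_zero _ hD) this.symm
  have hcq : c = ψ G.h ^ q := by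
    rw [hg, eval_sub, eval_X, eval_pow, eval_X, sub_eq_zero] at hgc
    conv_lhs => rw [hgc, pow_two, pow_mul, hc]
  refine ⟨by rw [pow_two, pow_mul, ← hcq, hc], fun hK => ?_⟩
  rw [← hcq] at hK
  have hPc : P.eval c = 0 := by rw [hPv ψ hψ c hc, hK, zero_mul]
  obtain ⟨g₁, hg₁⟩ := dvd_iff_isRoot.mpr (show IsRoot g c from hgc)
  obtain ⟨P₁, hP₁⟩ := dvd_iff_isRoot.mpr (show IsRoot P c from hPc)
  have hg₁c : g₁.eval c = 1 := by
    have h := congrArg (fun p => (derivative p).eval c) hg₁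
    simp only [hg, derivative_g, derivative_mul, derivative_X_sub_C, eval_one, one_mul, eval_add,
      eval_mul, eval_sub, eval_X, eval_C, sub_self, zero_mul, add_zero] at h
    exact h.symm
  set l : X.k[X] := Polynomial.X - Polynomial.C c with hl
  have hbr : IsRoot (g₁ * (P₁ + l * derivative P₁) - P₁) c := by
    rw [IsRoot.def, hl]
    simp [hg₁c]
  obtain ⟨n₁, hn₁⟩ := dvd_iff_isRoot.mpr hbr
  have hnum' : num = l ^ 2 * (g₁ ^ 2 * Polynomial.X ^ (q - 1) * E + n₁) := by
    rw [hnum, hg₁, hP₁, derivative_mul, hl, derivative_X_sub_C]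
    rw [hl] at hn₁
    linear_combination (Polynomial.X - Polynomial.C c) * hn₁
  have hl0 : l ≠ 0 := X_sub_C_ne_zero c
  have hpoly' : (g₁ ^ 2 * Polynomial.X ^ (q - 1) * E + n₁) ^ 6 * α * (G.Dbar ^ Nr) ^ (q - 1) =
      (g₁ ^ 2 * E) ^ 6 * ρ ^ (q - 1) * G.Dbar ^ Na := by
    refine mul_left_cancel₀ (pow_ne_zero 12 hl0) ?_
    rw [hnum', hg₁] at hpoly
    linear_combination hpoly
  have := congrArg (Polynomial.eval c) hpoly'
  simp only [eval_mul, eval_pow, hαc, mul_zero, zero_mul, hg₁c, one_pow, one_mul] at this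
  exact mul_ne_zero (mul_ne_zero (pow_ne_zero _ hEc) (pow_ne_zero _ hρc))
      (pow_ne_zero _ hD) this.symm

theorem red_baseHom_qExpand (κ : Option Bool) (c : G.C) :
    G.red κ (G.baseHom c) = qExpand X.k q (G.redC c) := by
  obtain ⟨hs, -, h⟩ := G.red_baseHom κ c
  rw [h]
  exact G.redS_upI c

end Model

end FLTAgent.CarayolSquare
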