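import Fermat.Agent.CarayolSquare.Supersingular.SuperRing
import Mathlib.RingTheory.Artinian.Module

/-!
# The maximal ideal of a point of the base

`exists_mul_mem_span`: the maximal ideal of a point of the base is generated locally by `q` and
`h - c`.  Used in `Supersingular.SuperLocal`.
-/

set_option autoImplicit false

noncomputable section

namespace FLTAgent.CarayolSquare

/-- An algebra spanned by finitely many elements, on which the kernel of a surjection to a field
acts as zero, is Artinian. -/
theorem isArtinianRing_of_span {O R k : Type*} [CommRing O] [CommRing R] [Field k] [Algebra O R]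
    (res : O →+* k) (hres : Function.Surjective res) (hker : ∀ o, res o = 0 → algebraMap O R o = 0)
    (S : Finset R) (hS : ∀ r : R, r ∈ Submodule.span O (S : Set R)) : IsArtinianRing R := by
  let ι : k →+* R := res.liftOfSurjective hres
    ⟨algebraMap O R, fun o ho => hker o ho⟩
  have hι : ∀ o, ι (res o) = algebraMap O R o := fun o =>
    RingHom.liftOfRightInverse_comp_apply _ _ _ _ o
  let : Algebra k R := ι.toAlgebra
  have : Module.Finite k R := by
    refine ⟨⟨S, eq_top_iff.mpr fun r hr0 => ?_⟩⟩
    clear hr0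
    have hr := hS r
    induction hr using Submodule.span_induction with
    | mem w hw => exact Submodule.subset_span hw
    | zero => exact zero_mem _
    | add w v _ _ hw hv => exact add_mem hw hv
    | smul o w _ hw =>
      rw [Algebra.smul_def, ← hι]
      exact Submodule.smul_mem (Submodule.span k (S : Set R)) (res o) hw
  exact IsArtinianRing.of_finite k R

/-- In an Artinian ring an element off one prime lies in all the other primes. -/
theorem exists_separator_hom {R k : Type*} [CommRing R] [IsArtinianRing R] [Field k] (f : R →+* k) :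
    ∃ e : R, f e ≠ 0 ∧ ∀ {L : Type} [Field L] (g : R →+* L),
      RingHom.ker g ≠ RingHom.ker f → g e = 0 := by
  classical
  have hfin : {P : Ideal R | P.IsPrime}.Finite := IsArtinianRing.setOfPred_isPrime_finite R
  have : (RingHom.ker f).IsPrime := RingHom.ker_isPrime f
  have hsep : ∀ P ∈ hfin.toFinset.erase (RingHom.ker f), ∃ e ∈ P, f e ≠ 0 := by
    intro P hP
    obtain ⟨hne, hmem⟩ := Finset.mem_erase.mp hP
    have hp : P.IsPrime := hfin.mem_toFinset.mp hmem
    have := IsArtinianRing.isMaximal_of_isPrime P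
    by_contra hcon
    push Not at hcon
    exact hne (Ideal.IsMaximal.eq_of_le inferInstance (Ideal.IsPrime.ne_top inferInstance)
      fun x hx => RingHom.mem_ker.mpr (hcon x hx))
  choose! ev hev hev' using hsep
  refine ⟨∏ P ∈ hfin.toFinset.erase (RingHom.ker f), ev P, ?_, fun g hg => ?_⟩
  · rw [map_prod]
    exact Finset.prod_ne_zero_iff.mpr hev'
  · have hmem : RingHom.ker g ∈ hfin.toFinset.erase (RingHom.ker f) :=
      Finset.mem_erase.mpr ⟨hg, hfin.mem_toFinset.mpr (RingHom.ker_isPrime g)⟩
    rw [map_prod]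
    exact Finset.prod_eq_zero hmem (RingHom.mem_ker.mp (hev _ hmem))

/-- Off one point, the points above an ideal with Artinian quotient are killed by a function. -/
theorem exists_kill_other {O A k : Type*} [CommRing O] [CommRing A] [Field k] [Algebra O A]
    (res : O →+* k) (hres : Function.Surjective res) (I : Ideal A)
    (hker : ∀ o, res o = 0 → algebraMap O A o ∈ I) (S : Finset A)
    (hS : ∀ a : A, ∃ b ∈ Submodule.span O (S : Set A), a - b ∈ I)
    (ψ : A →+* k) (hI : I ≤ RingHom.ker ψ) :
    ∃ e : A, ψ e ≠ 0 ∧ ∀ {L : Type} [Field L] (φ : A →+* L), I ≤ RingHom.ker φ →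
      ∀ z, ψ z = 0 → φ (e * z) = 0 := by
  classical
  let mk : A →ₐ[O] A ⧸ I := Ideal.Quotient.mkₐ O I
  have : IsArtinianRing (A ⧸ I) := by
    refine isArtinianRing_of_span res hres (fun o ho => ?_) (S.image mk) fun r => ?_
    · exact Ideal.Quotient.eq_zero_iff_mem.mpr (hker o ho)
    · obtain ⟨a, rfl⟩ := Ideal.Quotient.mk_surjective r
      obtain ⟨b, hb, hab⟩ := hS a
      rw [Ideal.Quotient.eq.mpr hab, show Ideal.Quotient.mk I b = mk b from rfl, Finset.coe_image]
      rw [show mk '' (S : Set A) = mk.toLinearMap '' (S : Set A) from rfl,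
        ← Submodule.map_span]
      exact ⟨b, hb, rfl⟩
  obtain ⟨e₀, he₀, hsep⟩ := exists_separator_hom (Ideal.Quotient.lift I ψ fun w hw => hI hw)
  obtain ⟨e, rfl⟩ := Ideal.Quotient.mk_surjective e₀
  refine ⟨e, he₀, fun φ hφ z hz => ?_⟩
  let φR := Ideal.Quotient.lift I φ fun w hw => hφ hw
  rw [map_mul]
  by_cases hP : RingHom.ker φR = RingHom.ker (Ideal.Quotient.lift I ψ fun w hw => hI hw)
  · refine mul_eq_zero_of_right _ ?_
    have h1 : Ideal.Quotient.mk I z ∈ RingHom.ker φR := by
      rw [hP]
      exact RingHom.mem_ker.mpr hz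
    exact RingHom.mem_ker.mp h1
  · exact mul_eq_zero_of_left (hsep φR hP) _

variable {q : ℕ} [NeZero q] [Fact q.Prime]

namespace Model

variable {X : Ctx q} {M₁ : ℕ} [NeZero M₁] (G : Model X M₁)

omit [NeZero q] [Fact (Nat.Prime q)] in
/-- Unramifiedness at a point, localised. -/
theorem exists_mul_mem_span (ψ : G.C →+* X.k) (hψ : ∀ o, ψ (algebraMap X.O G.C o) = X.resK o)
    {c₀ : X.O} (hc₀ : X.resK c₀ = ψ G.h) {z : G.C} (hz : ψ z = 0) :
    ∃ e : G.C, ψ e ≠ 0 ∧ e * z ∈ Ideal.span {(q : G.C), G.h - algebraMap X.O G.C c₀} := by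
  classical
  have := X.dvr
  set I := Ideal.span {(q : G.C), G.h - algebraMap X.O G.C c₀} with hI
  have hIψ : I ≤ RingHom.ker ψ := by
    rw [hI, Ideal.span_le]
    rintro w (rfl | rfl)
    · show ψ (q : G.C) = 0
      rw [map_natCast, X.natCast_k]
    · show ψ (G.h - algebraMap X.O G.C c₀) = 0
      rw [map_sub, hψ, hc₀, sub_self]
  -- the roots are avoided
  have hD : ψ (Polynomial.aeval G.h G.Dpol) ≠ 0 := fun h => by
    have h1 := congrArg ψ G.Dinv_aeval
    rw [map_mul, h, mul_zero, map_one] at h1
    exact zero_ne_one h1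
  have hroots : ∀ a ∈ G.roots, IsUnit (c₀ - a) := by
    intro a ha
    refine X.isUnit_of_resK ?_
    intro h0
    refine hD ?_
    rw [Dpol, map_prod, map_prod]
    refine Finset.prod_eq_zero ha ?_
    rw [map_sub, map_sub, Polynomial.aeval_X, Polynomial.aeval_C, hψ, ← hc₀, ← map_sub, h0]
  have hDI : ∀ x ∈ G.hA, ∃ o : X.O, x - algebraMap X.O G.C o ∈ I := by
    have hh : G.h - algebraMap X.O G.C c₀ ∈ I := Ideal.subset_span (by simp)
    intro x hx
    induction hx using Algebra.adjoin_induction with
    | mem w hw =>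
      rcases hw with rfl | rfl
      · exact ⟨c₀, hh⟩
      · obtain ⟨d, hd⟩ : IsUnit (Polynomial.eval c₀ G.Dpol) := by
          rw [Dpol, Polynomial.eval_prod]
          exact IsUnit.prod_iff.mpr fun a ha => by simpa using hroots a ha
        refine ⟨↑d⁻¹, ?_⟩
        obtain ⟨T, hT⟩ : (G.h - algebraMap X.O G.C c₀) ∣
            Polynomial.aeval G.h G.Dpol - algebraMap X.O G.C (Polynomial.eval c₀ G.Dpol) := by
          have := Polynomial.sub_dvd_eval_sub G.h (algebraMap X.O G.C c₀)
            (G.Dpol.map (algebraMap X.O G.C))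
          rwa [Polynomial.eval_map_apply, Polynomial.eval_map, ← Polynomial.aeval_def] at this
        have hdd : algebraMap X.O G.C (d : X.O) * algebraMap X.O G.C ↑d⁻¹ = 1 := by
          rw [← map_mul, Units.mul_inv, map_one]
        rw [← hd] at hT
        have e : G.Dinv - algebraMap X.O G.C ↑d⁻¹ =
            -(G.Dinv * algebraMap X.O G.C ↑d⁻¹ * T) * (G.h - algebraMap X.O G.C c₀) := by
          linear_combination algebraMap X.O G.C ↑d⁻¹ * G.Dinv_aeval -
            (G.Dinv * algebraMap X.O G.C ↑d⁻¹) * hT - G.Dinv * hdd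
        rw [e]
        exact I.mul_mem_left _ hh
    | algebraMap o => exact ⟨o, by rw [sub_self]; exact I.zero_mem⟩
    | add x y _ _ hx hy =>
      obtain ⟨o, ho⟩ := hx
      obtain ⟨o', ho'⟩ := hy
      exact ⟨o + o', by rw [map_add, add_sub_add_comm]; exact add_mem ho ho'⟩
    | mul x y _ _ hx hy =>
      obtain ⟨o, ho⟩ := hx
      obtain ⟨o', ho'⟩ := hy
      refine ⟨o * o', ?_⟩
      rw [map_mul, show x * y - algebraMap X.O G.C o * algebraMap X.O G.C o' =
        y * (x - algebraMap X.O G.C o) + algebraMap X.O G.C o * (y - algebraMap X.O G.C o') by ring]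
      exact add_mem (I.mul_mem_left _ ho) (I.mul_mem_left _ ho')
  obtain ⟨e, he, hkill⟩ := exists_kill_other X.resK X.resK_surjective I (fun o ho => by
      obtain ⟨d, rfl⟩ := (X.resK_eq_zero_iff o).mp ho
      rw [map_mul, map_natCast]
      exact I.mul_mem_right _ (Ideal.subset_span (by simp)))
    G.exists_generators.choose (fun a => by
      obtain ⟨f, hf, ef⟩ := G.exists_generators.choose_spec a
      have hfA : ∀ t, f t ∈ G.hA := fun t => by
        have h2 := hf t
        rw [hRing, show ({(G.h : Ser), (G.Dinv : Ser)} : Set Ser) = G.C.val '' {G.h, G.Dinv} by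
          rw [Set.image_pair]; rfl, ← AlgHom.map_adjoin] at h2
        obtain ⟨x, hx, ex⟩ := Subalgebra.mem_map.mp h2
        rwa [show x = f t from Subtype.ext ex] at hx
      choose o ho using fun t => hDI _ (hfA t)
      refine ⟨∑ t ∈ G.exists_generators.choose, o t • t, sum_mem fun t ht =>
        Submodule.smul_mem _ _ (Submodule.subset_span ht), ?_⟩
      rw [← ef, ← Finset.sum_sub_distrib]
      refine sum_mem fun t _ => ?_
      rw [Algebra.smul_def, ← sub_mul]
      exact I.mul_mem_right _ (ho t))
    ψ hIψ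
  refine ⟨e, he, G.unram c₀ hroots (e * z) fun φ hφq hφh => hkill φ ?_ z hz⟩
  rw [hI, Ideal.span_le]
  rintro w (rfl | rfl)
  · exact hφq
  · exact hφh

end Model

end FLTAgent.CarayolSquare
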