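import Fermat.Agent.CarayolSquare.Supersingular.Reduce

/-!
# The Kronecker polynomial

The polynomial `Kpol` with roots the translates of `h`, its shape modulo `q`, and the values at a
point where the reduction of `q ^ 12 Δ (q τ) / Δ` along the finite lines vanishes (`value_eq`,
`Dbar_root`).
-/

set_option autoImplicit false

noncomputable section

open ModularCurve

namespace FLTAgent.CarayolSquare

local notation "Qbar" => AlgebraicClosure ℚ

variable {q : ℕ}

namespace Ctx

variable (X : Ctx q)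

theorem thetaL_mem_intSer {s : Ser} (hs : s ∈ X.intSer) : ThetaOp.thetaL s ∈ X.intSer := fun n => by
  rw [ThetaOp.thetaL_coeff]
  exact X.A.mul_mem _ _ (intCast_mem X.A.toSubring n) (hs n)

/-- The operator `t d/dt` on integral series. -/
def thetaI (s : X.intSer) : X.intSer := ⟨ThetaOp.thetaL (s : Ser), X.thetaL_mem_intSer s.2⟩

theorem redS_thetaI (s : X.intSer) : X.redS (X.thetaI s) = ThetaOp.thetaL (X.redS s) := by
  ext n
  rw [coeff_redS, ThetaOp.thetaL_coeff, coeff_redS, ← map_intCast (IsLocalRing.residue X.A),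
      ← map_mul]
  refine congrArg _ (Subtype.ext ?_)
  show (ThetaOp.thetaL (s : Ser)).coeff n = _
  rw [ThetaOp.thetaL_coeff]
  push_cast
  rfl

/-- The reduction of the series of `Δ`. -/
def discBar (M₁ : ℕ) [NeZero M₁] : LaurentSeries X.k :=
  X.redS ⟨qExpand Qbar M₁ (Igusa.discSeries Qbar),
    (X.qExpand_mem_goodSer M₁ X.discSeries_mem_goodSer.1).1⟩

/-- The reduction of the series of `1/Δ`. -/
def discInvBar (M₁ : ℕ) [NeZero M₁] : LaurentSeries X.k :=
  X.redS ⟨qExpand Qbar M₁ (Igusa.discInvSeries Qbar),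
    (X.qExpand_mem_goodSer M₁ X.discSeries_mem_goodSer.2).1⟩

theorem discBar_mul (M₁ : ℕ) [NeZero M₁] : X.discBar M₁ * X.discInvBar M₁ = 1 := by
  rw [discBar, discInvBar, ← map_mul, ← map_one X.redS]
  refine congrArg _ (Subtype.ext ?_)
  show qExpand Qbar M₁ _ * qExpand Qbar M₁ _ = 1
  rw [← map_mul, Igusa.discSeries_mul_inv, map_one]

theorem discBar_pow (M₁ : ℕ) [NeZero M₁] [NeZero q] :
    X.discBar M₁ ^ q = qExpand X.k q (X.discBar M₁) := by
  have := X.charP_k
  have : Fact q.Prime := ⟨X.prime⟩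
  refine ThetaOp.pow_char_of_fixed q fun n => ?_
  obtain ⟨z, hz⟩ : ∃ z : ℤ, (z : Qbar) = (qExpand Qbar M₁ (Igusa.discSeries Qbar)).coeff n := by
    by_cases hn : (M₁ : ℤ) ∣ n
    · obtain ⟨i, rfl⟩ := hn
      rw [qExpand_coeff_mul, ← (Igusa.coeffMap_discSeries (Int.castRingHom Qbar)).1]
      exact ⟨_, rfl⟩
    · exact ⟨0, by rw [qExpand_coeff_of_not_dvd _ _ hn]; simp⟩
  have h : (X.discBar M₁).coeff n = (z : X.k) := by
    rw [discBar, coeff_redS, ← map_intCast (IsLocalRing.residue X.A)]
    exact congrArg _ (Subtype.ext (by push_cast; exact hz.symm))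
  rw [h, ← frobenius_def, map_intCast]

end Ctx

variable [NeZero q] [Fact q.Prime]

namespace Model

variable {X : Ctx q} {M₁ : ℕ} [NeZero M₁] (G : Model X M₁)

/-- Base functions as integral series in `t`. -/
def upI : G.C →+* X.intSer :=
  (X.up.comp G.C.val.toRingHom).codRestrict X.intSer
    fun c => (X.up_mem_goodSer (X.goodSer_of_coeffInO (G.coeff_mem _ c.2))).1

/-- Translates as integral series in `t`. -/
def subI (L : Line q) : G.C →+* X.intSer :=
  ((X.sub L).comp G.C.val.toRingHom).codRestrict X.intSer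
    fun c => (X.sub_mem_goodSer L (X.goodSer_of_coeffInO (G.coeff_mem _ c.2))).1

omit [NeZero q] [Fact (Nat.Prime q)] in
theorem coe_upI (c : G.C) : (G.upI c : Ser) = X.up (c : Ser) := rfl

omit [NeZero q] [Fact (Nat.Prime q)] in
theorem coe_subI (L : Line q) (c : G.C) : (G.subI L c : Ser) = X.sub L (c : Ser) := rfl

omit [Fact (Nat.Prime q)] in
theorem redS_upI (c : G.C) : X.redS (G.upI c) = qExpand X.k q (G.redC c) :=
  X.redS_qExpand q ⟨_, X.coeffInO_intSer (G.coeff_mem _ c.2)⟩ (G.upI c).2

omit [NeZero q] [Fact (Nat.Prime q)] in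
theorem redS_subI_some (b : ZMod q) (c : G.C) : X.redS (G.subI (some b) c) = G.redC c :=
  X.redS_scale b ⟨_, X.coeffInO_intSer (G.coeff_mem _ c.2)⟩ (G.subI (some b) c).2

omit [Fact (Nat.Prime q)] in
theorem redS_subI_none (c : G.C) :
    X.redS (G.subI none c) = qExpand X.k q (qExpand X.k q (G.redC c)) := by
  rw [← G.redS_upI c]
  exact X.redS_qExpand q (G.upI c) (G.subI none c).2

omit [NeZero q] in
theorem subI_zero (c : G.C) : (G.subI (some 0) c : Ser) = (c : Ser) := by
  rw [coe_subI]
  show Igusa.scale (X.zetaU 0) (c : Ser) = _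
  rw [show X.zetaU 0 = 1 from Units.ext (by show X.ζ ^ (0 : ZMod q).val = 1; simp), Igusa.scale_one]

omit [NeZero q] [Fact (Nat.Prime q)] in
/-- Symmetric polynomials in the translates of `h` and `d` descend to `O [h, 1/D]`. -/
theorem exists_descend_hA (P : MvPolynomial (Line q × GenH) X.O)
    (hP : ∀ π : Equiv.Perm (Line q), MvPolynomial.rename (Prod.map π id) P = P) :
    ∃ c : G.hA, X.up ((c : G.C) : Ser) = MvPolynomial.aeval
      (fun v : Line q × GenH => genHSer X M₁ (G.h : Ser) v.1 v.2) P := by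
  obtain ⟨c, hc, e⟩ := G.symm_h P hP
  exact ⟨⟨c, hc⟩, e.symm⟩

omit [Fact (Nat.Prime q)] in
/-- The product of `X - h_L` over all lines. -/
theorem exists_Phi : ∃ Φ : Polynomial G.C, (∀ n, Φ.coeff n ∈ G.hA) ∧
    Φ.map G.upI =
      ∏ L : Line q, (Polynomial.X - Polynomial.C (G.subI L G.h)) := by
  classical
  set Q : Polynomial (MvPolynomial (Line q × GenH) X.O) :=
    ∏ L : Line q, (Polynomial.X - Polynomial.C (MvPolynomial.X (L, GenH.pull))) with hQ
  have hsym : ∀ π : Equiv.Perm (Line q), Q.map (MvPolynomial.rename (Prod.map π id) :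
      MvPolynomial (Line q × GenH) X.O →ₐ[X.O] MvPolynomial (Line q × GenH) X.O).toRingHom = Q := by
    intro π
    simp only [hQ, Polynomial.map_prod, Polynomial.map_sub, Polynomial.map_X, Polynomial.map_C,
      AlgHom.toRingHom_eq_coe, RingHom.coe_coe, MvPolynomial.rename_X, Prod.map_apply, id_eq]
    exact Fintype.prod_equiv π _ (fun L => Polynomial.X - Polynomial.C
      (MvPolynomial.X (L, GenH.pull) : MvPolynomial (Line q × GenH) X.O)) fun _ => rfl
  choose c hc using fun n : ℕ => G.exists_descend_hA (Q.coeff n) fun π => by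
    have := congrArg (fun R => Polynomial.coeff R n) (hsym π)
    simpa using this
  refine ⟨∑ n ∈ Finset.range (Q.natDegree + 1), Polynomial.monomial n (c n : G.C), fun n => ?_, ?_⟩
  · rw [Polynomial.finsetSum_coeff]
    refine sum_mem fun i _ => ?_
    rw [Polynomial.coeff_monomial]
    split
    · exact (c i).2
    · exact zero_mem _
  refine Polynomial.map_injective X.intSer.subtype Subtype.val_injective ?_
  have e : Q.map (MvPolynomial.aeval (fun v : Line q × GenH =>
      genHSer X M₁ (G.h : Ser) v.1 v.2) : _ →ₐ[X.O] Ser).toRingHom =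
      (∏ L : Line q, (Polynomial.X - Polynomial.C (G.subI L G.h))).map X.intSer.subtype := by
    simp only [hQ, Polynomial.map_prod, Polynomial.map_sub, Polynomial.map_X, Polynomial.map_C,
      AlgHom.toRingHom_eq_coe, RingHom.coe_coe, MvPolynomial.aeval_X]
    rfl
  rw [← e]
  conv_rhs => rw [Q.as_sum_range' _ (Nat.lt_succ_self _)]
  rw [Polynomial.map_sum, Polynomial.map_sum, Polynomial.map_sum]
  refine Finset.sum_congr rfl fun n _ => ?_
  rw [Polynomial.map_monomial, Polynomial.map_monomial, Polynomial.map_monomial]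
  congr 1
  exact hc n

/-- Polynomials with coefficients in `O [h, 1/D]`. -/
def HasCoeffs (P : Polynomial G.C) : Prop := ∀ n, P.coeff n ∈ G.hA

omit [NeZero q] [Fact (Nat.Prime q)] in
theorem hasCoeffs_mul {P Q : Polynomial G.C} (hP : G.HasCoeffs P) (hQ : G.HasCoeffs Q) :
    G.HasCoeffs (P * Q) := fun n => by
  rw [Polynomial.coeff_mul]
  exact sum_mem fun x _ => mul_mem (hP _) (hQ _)

omit [NeZero q] [Fact (Nat.Prime q)] in
theorem hasCoeffs_sub {P Q : Polynomial G.C} (hP : G.HasCoeffs P) (hQ : G.HasCoeffs Q) :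
    G.HasCoeffs (P - Q) := fun n => by
  rw [Polynomial.coeff_sub]
  exact sub_mem (hP _) (hQ _)

omit [NeZero q] [Fact (Nat.Prime q)] in
theorem hasCoeffs_X_pow (i : ℕ) : G.HasCoeffs (Polynomial.X ^ i) := fun n => by
  rw [Polynomial.coeff_X_pow]
  split
  · exact one_mem _
  · exact zero_mem _

omit [NeZero q] [Fact (Nat.Prime q)] in
theorem hasCoeffs_C {x : G.C} (hx : x ∈ G.hA) : G.HasCoeffs (Polynomial.C x) := fun n => by
  rw [Polynomial.coeff_C]
  split
  · exact hx
  · exact zero_mem _

/-- The product modulo `q` of the Kronecker congruence. -/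
def kronecker : Polynomial G.C :=
  ((Polynomial.X : Polynomial G.C) - Polynomial.C (G.h ^ q)) *
    ((Polynomial.X : Polynomial G.C) ^ q - Polynomial.C G.h)

omit [NeZero q] [Fact (Nat.Prime q)] in
theorem hasCoeffs_kronecker : G.HasCoeffs G.kronecker :=
  G.hasCoeffs_mul (G.hasCoeffs_sub (by simpa using G.hasCoeffs_X_pow 1)
    (G.hasCoeffs_C (pow_mem G.h_mem_hA q))) (G.hasCoeffs_sub (G.hasCoeffs_X_pow q)
    (G.hasCoeffs_C G.h_mem_hA))

omit [Fact (Nat.Prime q)] in
/-- **The Kronecker congruence.** -/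
theorem exists_Kpol : ∃ K : Polynomial G.C, G.HasCoeffs K ∧
    (G.kronecker + Polynomial.C (q : G.C) * K).map G.upI =
      ∏ L : Line q, (Polynomial.X - Polynomial.C (G.subI L G.h)) := by
  classical
  have := X.charP_serk
  have : ExpChar (LaurentSeries X.k) q := ExpChar.prime X.prime
  obtain ⟨Φ, hΦA, hΦ⟩ := G.exists_Phi
  set P := Φ - G.kronecker with hP
  have hred : P.map G.redC = 0 := by
    refine Polynomial.map_injective _ (qExpand_injective (R := X.k) (N := q)) ?_
    have hcomp : (qExpand X.k q).comp G.redC = X.redS.comp G.upI :=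
      RingHom.ext fun c => (G.redS_upI _).symm
    rw [Polynomial.map_zero, Polynomial.map_map, hcomp, hP, Polynomial.map_sub, sub_eq_zero,
      ← Polynomial.map_map, hΦ, kronecker, Polynomial.map_prod, Fintype.prod_option]
    simp only [Polynomial.map_sub, Polynomial.map_mul, Polynomial.map_pow, Polynomial.map_X,
      Polynomial.map_C, G.redS_subI_none, G.redS_subI_some, Finset.prod_const, Finset.card_univ,
      ZMod.card, sub_pow_expChar, RingHom.comp_apply, G.redS_upI, map_pow G.redC]
    rw [show G.redC G.h = G.hbar from rfl, ← map_pow Polynomial.C, G.hbar_pow]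
  have hq : ∀ n, ∃ y ∈ G.hA, P.coeff n = (q : G.C) * y := fun n => by
    refine G.exists_q_mul_hA (G.hasCoeffs_sub hΦA G.hasCoeffs_kronecker n) ?_
    rw [← Polynomial.coeff_map, hred, Polynomial.coeff_zero]
  choose y hy hPy using hq
  obtain ⟨K, hK⟩ : Polynomial.C (q : G.C) ∣ P :=
    (Polynomial.C_dvd_iff_dvd_coeff _ _).mpr fun n => ⟨y n, hPy n⟩
  refine ⟨K, fun n => ?_, by
    rw [show G.kronecker + Polynomial.C (q : G.C) * K = Φ by rw [← hK, hP]; ring, hΦ]⟩
  have h1 := congrArg (fun T => Polynomial.coeff T n) hK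
  simp only [Polynomial.coeff_C_mul, hPy] at h1
  have hq0 : (q : G.C) ≠ 0 := fun h0 => by
    have h2 := congrArg G.C.val h0
    rw [map_natCast, map_zero, ← map_natCast (HahnSeries.C : Qbar →+* Ser), map_eq_zero_iff _
      HahnSeries.C_injective] at h2
    exact X.q_ne_zero h2
  rw [← mul_left_cancel₀ hq0 h1]
  exact hy n

/-- The quotient of the Kronecker congruence by `q`. -/
def Kpol : Polynomial G.C := G.exists_Kpol.choose

omit [Fact (Nat.Prime q)] in
theorem hasCoeffs_Kpol : G.HasCoeffs G.Kpol := G.exists_Kpol.choose_spec.1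

omit [Fact (Nat.Prime q)] in
theorem map_Phi : (G.kronecker + Polynomial.C (q : G.C) * G.Kpol).map G.upI =
    ∏ L : Line q, (Polynomial.X - Polynomial.C (G.subI L G.h)) := G.exists_Kpol.choose_spec.2

omit [NeZero q] [Fact (Nat.Prime q)] in
/-- Equalities of reductions give equalities of values at points. -/
theorem value_eq (ψ : G.C →+* X.k) (hψ : ∀ o, ψ (algebraMap X.O G.C o) = X.resK o)
    {x : G.C} {num den : Polynomial X.k} (h : G.redC x * G.evh den = G.evh num) :
    ψ x * den.eval (ψ G.h) = num.eval (ψ G.h) := by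
  obtain ⟨d, rfl⟩ := Polynomial.map_surjective X.resK X.resK_surjective den
  obtain ⟨n, rfl⟩ := Polynomial.map_surjective X.resK X.resK_surjective num
  rw [← G.redC_aeval, ← G.redC_aeval, ← map_mul, ← sub_eq_zero, ← map_sub,
    G.redC_eq_zero_iff_dvd] at h
  obtain ⟨c, hc⟩ := h
  have he : ∀ p : Polynomial X.O, ψ (Polynomial.aeval G.h p) = (p.map X.resK).eval (ψ G.h) :=
    fun p => by
      rw [Polynomial.eval_map, Polynomial.aeval_def, Polynomial.hom_eval₂]
      exact congrArg (fun φ => Polynomial.eval₂ φ (ψ G.h) p) (RingHom.ext hψ)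
  have h0 : ψ (q : G.C) = 0 := by rw [map_natCast, X.natCast_k]
  have := congrArg ψ hc
  rw [map_sub, map_mul, map_mul, h0, zero_mul, sub_eq_zero, he, he] at this
  exact this

/-- The roots of `D` modulo `q`. -/
def Dbar : Polynomial X.k := G.Dpol.map X.resK

omit [NeZero q] [Fact (Nat.Prime q)] in
theorem redC_clear {x : G.C} (hx : x ∈ G.hA) : ∃ (N : ℕ) (p : Polynomial X.k),
    G.redC x * G.evh (G.Dbar ^ N) = G.evh p := by
  obtain ⟨N, p, hp⟩ := G.exists_clear hx
  refine ⟨N, p.map X.resK, ?_⟩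
  rw [← G.redC_aeval, ← hp, map_mul, map_pow, map_pow, G.redC_aeval]
  rfl

omit [NeZero q] [Fact (Nat.Prime q)] in
theorem psi_Dbar (ψ : G.C →+* X.k) (hψ : ∀ o, ψ (algebraMap X.O G.C o) = X.resK o) :
    G.Dbar.eval (ψ G.h) ≠ 0 := by
  intro h
  have h1 := congrArg ψ G.Dinv_aeval
  rw [map_mul, map_one] at h1
  have := G.value_eq ψ hψ (x := Polynomial.aeval G.h G.Dpol) (num := G.Dbar) (den := 1)
    (by rw [map_one, mul_one, G.redC_aeval]; rfl)
  rw [Polynomial.eval_one, mul_one, h] at this
  rw [this, mul_zero] at h1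
  exact zero_ne_one h1

omit [Fact (Nat.Prime q)] in
/-- The product of the translates of `D (h)`. -/
theorem exists_normD [ExpChar X.k q] : ∃ p e : G.C, p * e = 1 ∧
    G.redC p = G.evh (Polynomial.expand X.k q G.Dbar * G.Dbar.map (frobenius X.k q)) := by
  classical
  have := X.charP_k
  have := X.charP_serk
  set P : MvPolynomial (Line q × GenH) X.O := ∏ L : Line q, ∏ a ∈ G.roots,
    (MvPolynomial.X (L, GenH.pull) - MvPolynomial.C a) with hP
  obtain ⟨p, hp⟩ := G.exists_descend_hA P fun π => by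
    simp only [hP, map_prod, map_sub, MvPolynomial.rename_X, MvPolynomial.rename_C]
    exact Fintype.prod_equiv π _ (fun L => ∏ a ∈ G.roots,
      (MvPolynomial.X (L, GenH.pull) - MvPolynomial.C a : MvPolynomial (Line q × GenH) X.O))
      fun _ => rfl
  have hp' : G.upI (p : G.C) = ∏ L : Line q, G.subI L (Polynomial.aeval G.h G.Dpol) := by
    refine Subtype.ext ?_
    rw [coe_upI, hp, hP, map_prod, show
      ((∏ L : Line q, G.subI L (Polynomial.aeval G.h G.Dpol) : X.intSer) : Ser) =
        ∏ L : Line q, (G.subI L (Polynomial.aeval G.h G.Dpol) : Ser) from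
      map_prod X.intSer.subtype _ _]
    refine Finset.prod_congr rfl fun L _ => ?_
    rw [Dpol, map_prod, map_prod, map_prod, show ((∏ a ∈ G.roots, G.subI L (Polynomial.aeval G.h
      (Polynomial.X - Polynomial.C a)) : X.intSer) : Ser) = ∏ a ∈ G.roots,
      (G.subI L (Polynomial.aeval G.h (Polynomial.X - Polynomial.C a)) : Ser) from
        map_prod X.intSer.subtype _ _]
    refine Finset.prod_congr rfl fun a _ => ?_
    rw [map_sub, map_sub, map_sub, MvPolynomial.aeval_X, MvPolynomial.aeval_C, Polynomial.aeval_X,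
      Polynomial.aeval_C, AddSubgroupClass.coe_sub, coe_subI, coe_subI]
    congr 1
    exact (X.sub_algebraMap L a).symm
  -- the inverse
  obtain ⟨e, he⟩ := G.symm (∏ L : Line q, MvPolynomial.X (L, Gen.pull G.Dinv)) fun π => by
    simp only [map_prod, MvPolynomial.rename_X]
    exact Fintype.prod_equiv π _ (fun L => (MvPolynomial.X (L, Gen.pull G.Dinv) :
      MvPolynomial (Line q × Gen G.C) X.O)) fun _ => rfl
  have hinv : ∀ δ, G.cs δ G.h = (G.h : Ser) → G.cs δ G.Dinv = (G.Dinv : Ser) := by
    intro δ hδ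
    have h1 : Polynomial.aeval (G.h : Ser) G.Dpol = G.cs δ (Polynomial.aeval G.h G.Dpol) := by
      rw [← Polynomial.aeval_algHom_apply, hδ]
    have h2 : (Polynomial.aeval G.h G.Dpol : G.C).1 = Polynomial.aeval (G.h : Ser) G.Dpol :=
      (Polynomial.aeval_algHom_apply G.C.val G.h G.Dpol).symm
    have h3 := congrArg (G.cs δ) G.Dinv_aeval
    have h4 := congrArg G.C.val G.Dinv_aeval
    rw [map_mul, map_one, ← h1] at h3
    rw [map_mul, map_one] at h4
    change (G.Dinv : Ser) * (Polynomial.aeval G.h G.Dpol : G.C).1 = 1 at h4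
    rw [h2] at h4
    exact mul_right_cancel₀ (right_ne_zero_of_mul (h4.trans_ne one_ne_zero)) (h3.trans h4.symm)
  have he' : G.upI e = ∏ L : Line q, G.subI L G.Dinv := by
    refine Subtype.ext ?_
    rw [coe_upI, show ((∏ L : Line q, G.subI L G.Dinv : X.intSer) : Ser) =
      ∏ L : Line q, (G.subI L G.Dinv : Ser) from map_prod X.intSer.subtype _ _, ← G.cs_one e,
      ← he G.one, map_prod]
    refine Finset.prod_congr rfl fun L _ => ?_
    rw [MvPolynomial.aeval_X]
    show X.sub L (G.cs (lineCusp G.twP G.twB G.one L) G.Dinv) = _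
    rw [hinv _ (by
      cases L with
      | none => exact G.twP_h
      | some b => show G.cs (G.twB G.one) G.h = _; rw [G.twB_one, G.cs_one])]
    rfl
  have hinj : Function.Injective G.upI := fun a b h =>
    Subtype.ext (X.up.injective (congrArg Subtype.val h))
  refine ⟨(p : G.C), e, hinj ?_, qExpand_injective (R := X.k) (N := q) ?_⟩
  · rw [map_mul, map_one, hp', he', ← Finset.prod_mul_distrib]
    refine Finset.prod_eq_one fun L _ => ?_
    rw [← map_mul, mul_comm, G.Dinv_aeval, map_one]
  · rw [← G.redS_upI, hp', map_prod, Fintype.prod_option, G.redS_subI_none]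
    simp only [G.redS_subI_some, Finset.prod_const, Finset.card_univ, ZMod.card, G.redC_aeval]
    show qExpand X.k q (qExpand X.k q (G.evh G.Dbar)) * G.evh G.Dbar ^ q = _
    rw [G.qExpand_evh, G.qExpand_evh, G.qExpand_evh, map_mul (Polynomial.expand X.k q),
      map_mul G.evh, ← map_pow]
    congr 2
    rw [← Polynomial.map_frobenius_expand, Polynomial.map_expand]

omit [Fact (Nat.Prime q)] in
/-- Nonvanishing of `D` at the inseparable translate. -/
theorem Dbar_root (ψ : G.C →+* X.k) (hψ : ∀ o, ψ (algebraMap X.O G.C o) = X.resK o) {c : X.k}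
    (hc : c ^ q = ψ G.h) : G.Dbar.eval c ≠ 0 := by
  have := X.charP_k
  have : ExpChar X.k q := ExpChar.prime X.prime
  obtain ⟨p, e, hpe, hp⟩ := G.exists_normD
  intro h
  have h1 := G.value_eq ψ hψ (x := p) (den := 1)
    (num := Polynomial.expand X.k q G.Dbar * G.Dbar.map (frobenius X.k q))
    (by rw [map_one, mul_one, hp])
  rw [Polynomial.eval_one, mul_one, Polynomial.eval_mul, ← hc, ← frobenius_def,
    Polynomial.eval_map, Polynomial.eval₂_at_apply, h, map_zero, mul_zero] at h1
  have h2 := congrArg ψ hpe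
  rw [map_mul, h1, zero_mul, map_one] at h2
  exact zero_ne_one h2

end Model

end FLTAgent.CarayolSquare
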