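import Fermat.Agent.CarayolSquare.Supersingular.Theta
import Fermat.Agent.CarayolSquare.Ordinary.Defs

/-!
# Reduction modulo `q` of the level `M₁` functions

Reduction in the parameter of level `M₁`: the image `hbar` of `h`, evaluation `evh` at it, the ring
`hA` and divisibility by `q` there (`exists_q_mul_hA`).
-/

set_option autoImplicit false

noncomputable section

open ModularCurve

namespace FLTAgent.CarayolSquare

local notation "Qbar" => AlgebraicClosure ℚ

variable {q : ℕ}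

namespace Ctx

variable (X : Ctx q)

theorem charP_k : CharP X.k q := (CharP.charP_iff_prime_eq_zero X.prime).mpr X.natCast_k

theorem coeffInO_intSer {s : Ser} (h : X.CoeffInO s) : s ∈ X.intSer :=
  (X.goodSer_of_coeffInO h).1

theorem C_q_dvd_of_map {p : Polynomial X.O} (h : p.map X.resK = 0) :
    Polynomial.C (q : X.O) ∣ p := by
  have := X.dvr
  rw [Polynomial.C_dvd_iff_dvd_coeff]
  intro i
  have h2 : X.resK (p.coeff i) = 0 := by
    rw [← Polynomial.coeff_map X.resK i]
    simp [h]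
  rw [← Ideal.mem_span_singleton, ← X.irreducible_q.maximalIdeal_eq]
  exact (IsLocalRing.mem_maximalIdeal _).mpr fun hu => (hu.map X.resK).ne_zero h2

theorem coeff_redS_eq_zero (s : X.intSer) (n : ℤ) :
    (X.redS s).coeff n = 0 ↔ X.A.valuation ((s : Ser).coeff n) < 1 :=
  ((IsLocalRing.residue_eq_zero_iff _).trans (X.A.valuation_lt_one_iff _) :)

theorem redS_qExpand (N : ℕ) [NeZero N] (s : X.intSer) (h : qExpand Qbar N (s : Ser) ∈ X.intSer) :
    X.redS ⟨_, h⟩ = qExpand X.k N (X.redS s) := by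
  ext n
  by_cases hn : (N : ℤ) ∣ n
  · obtain ⟨i, rfl⟩ := hn
    refine Eq.trans ?_ (qExpand_coeff_mul N (X.redS s) i).symm
    rw [coeff_redS, coeff_redS]
    exact congrArg _ (Subtype.ext (qExpand_coeff_mul N (s : Ser) i))
  · rw [qExpand_coeff_of_not_dvd _ _ hn, coeff_redS_eq_zero]
    show X.A.valuation ((qExpand Qbar N (s : Ser)).coeff n) < 1
    rw [qExpand_coeff_of_not_dvd _ _ hn, map_zero]
    exact zero_lt_one

theorem residue_zeta_zpow (b : ℕ) (n : ℤ) :
    IsLocalRing.residue X.A ⟨(X.ζ ^ b) ^ n, (X.zpow_zeta_mem b n).1⟩ = 1 := by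
  have := X.charP_k
  have : Fact q.Prime := ⟨X.prime⟩
  have h : (IsLocalRing.residue X.A ⟨(X.ζ ^ b) ^ n, (X.zpow_zeta_mem b n).1⟩) ^ q = 1 := by
    rw [← map_pow, ← map_one (IsLocalRing.residue X.A)]
    refine congrArg _ (Subtype.ext ?_)
    show ((X.ζ ^ b) ^ n) ^ q = 1
    rw [← zpow_natCast, ← zpow_mul, mul_comm, zpow_mul, zpow_natCast, ← pow_mul, mul_comm,
      pow_mul, X.hζ.pow_eq_one, one_pow, one_zpow]
  refine frobenius_inj X.k q ?_
  rw [frobenius_def, frobenius_def, one_pow, h]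

theorem redS_scale (b : ZMod q) (s : X.intSer) (h : Igusa.scale (X.zetaU b) (s : Ser) ∈ X.intSer) :
    X.redS ⟨_, h⟩ = X.redS s := by
  ext n
  rw [coeff_redS, coeff_redS]
  have e : (⟨(Igusa.scale (X.zetaU b) (s : Ser)).coeff n, h n⟩ : X.A) =
      ⟨(X.ζ ^ b.val) ^ n, (X.zpow_zeta_mem _ n).1⟩ * ⟨(s : Ser).coeff n, s.2 n⟩ := Subtype.ext (by
    show (Igusa.scale (X.zetaU b) (s : Ser)).coeff n = _
    rw [Igusa.coeff_scale, Units.val_zpow_eq_zpow_val]
    rfl)
  rw [e, map_mul, X.residue_zeta_zpow, one_mul]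

end Ctx

namespace Model

variable {X : Ctx q} {M₁ : ℕ} [NeZero M₁] (G : Model X M₁)

theorem redC_eq_zero_iff_dvd (c : G.C) : G.redC c = 0 ↔ ∃ c' : G.C, c = (q : G.C) * c' := by
  rw [redC_apply, X.redS_eq_zero_iff]
  constructor
  · intro h
    obtain ⟨c', hc', e⟩ := G.saturate _ c.2 h
    exact ⟨⟨c', hc'⟩, Subtype.ext (by push_cast; exact e)⟩
  · rintro ⟨c', rfl⟩ n
    show X.A.valuation ((((q : G.C) * c' : G.C) : Ser).coeff n) < 1
    rw [show (((q : G.C) * c' : G.C) : Ser) = (q : Ser) * (c' : Ser) from by push_cast; rfl,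
      ← map_natCast (HahnSeries.C : Qbar →+* Ser), HahnSeries.C_mul_eq_smul, HahnSeries.coeff_smul,
      smul_eq_mul, map_mul]
    exact mul_lt_one_of_nonneg_of_lt_one_left zero_le X.q_lt_one
      ((X.A.valuation_le_one_iff _).mpr (X.coeffInO_intSer (G.coeff_mem _ c'.2) n))

theorem redC_algebraMap (c : X.O) :
    G.redC (algebraMap X.O G.C c) = HahnSeries.C (X.resK c) := by
  ext n
  rw [redC_apply, Ctx.coeff_redS, HahnSeries.C_apply, HahnSeries.coeff_single]
  have hc : ((algebraMap X.O G.C c : G.C) : Ser).coeff n =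
      if n = 0 then algebraMap X.K Qbar (c : X.K) else 0 := by
    show (algebraMap X.O Ser c).coeff n = _
    rw [X.algebraMap_eq_C, HahnSeries.C_apply, HahnSeries.coeff_single]
    split_ifs <;> rfl
  split_ifs with h
  · subst h
    rw [if_pos rfl] at hc
    exact congrArg (IsLocalRing.residue X.A) (Subtype.ext hc)
  · rw [if_neg h] at hc
    rw [show (⟨_, _⟩ : X.A) = 0 from Subtype.ext hc, map_zero]

/-- The reduction of `h`. -/
def hbar : LaurentSeries X.k := G.redC G.h

theorem lead_hbar : ∃ e : ℕ, 0 < e ∧ ∃ a : X.k, a ≠ 0 ∧ Igusa.Lead G.hbar (-(e : ℤ)) a := by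
  obtain ⟨e, he, -, hlow, hlead⟩ := G.h_order
  refine ⟨e, he, G.hbar.coeff (-(e : ℤ)), ?_, rfl, fun i hi => ?_⟩
  · rw [hbar, redC_apply, Ne, Ctx.coeff_redS_eq_zero]
    exact hlead.ge.not_gt
  · rw [hbar, redC_apply, Ctx.coeff_redS_eq_zero]
    show X.A.valuation ((G.h : Ser).coeff i) < 1
    rw [hlow i hi, map_zero]
    exact zero_lt_one

/-- Evaluation of polynomials over `k` at the reduction of `h`. -/
def evh : Polynomial X.k →+* LaurentSeries X.k := Polynomial.eval₂RingHom HahnSeries.C G.hbar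

theorem evh_injective : Function.Injective G.evh := by
  rw [injective_iff_map_eq_zero]
  intro P hP
  obtain ⟨e, he, a, ha, hlead⟩ := G.lead_hbar
  by_contra h0
  have h1 : Polynomial.aeval G.hbar P = 0 := by
    rw [← hP, Polynomial.aeval_def]
    show _ = Polynomial.eval₂ _ _ _
    congr 1
    exact RingHom.ext fun c => by rw [algebraMap_laurentSeries_eq_single, HahnSeries.C_apply]
  exact (Igusa.lead_aeval hlead (by omega) P).ne_zero
    (mul_ne_zero (Polynomial.leadingCoeff_ne_zero.mpr h0) (pow_ne_zero _ ha)) h1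

theorem hbar_pow [NeZero q] : G.hbar ^ q = qExpand X.k q G.hbar := by
  have := X.charP_k
  have : Fact q.Prime := ⟨X.prime⟩
  refine ThetaOp.pow_char_of_fixed q fun n => ?_
  rw [hbar, redC_apply, Ctx.coeff_redS, ← map_pow, ← sub_eq_zero, ← map_sub]
  exact (IsLocalRing.residue_eq_zero_iff _).mpr ((X.A.valuation_lt_one_iff _).mpr (G.h_rat n))

theorem qExpand_evh [NeZero q] (P : Polynomial X.k) :
    qExpand X.k q (G.evh P) = G.evh (Polynomial.expand X.k q P) := by
  show qExpand X.k q (Polynomial.eval₂ _ _ P) = Polynomial.eval₂ _ _ _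
  rw [Polynomial.hom_eval₂, Polynomial.expand_eq_comp_X_pow, Polynomial.eval₂_comp,
    Polynomial.eval₂_pow, Polynomial.eval₂_X, G.hbar_pow]
  exact congrArg (fun φ => Polynomial.eval₂ φ _ P) (RingHom.ext fun c => qExpand_C q c)

/-- `O [h, 1/D]` inside `C`. -/
def hA : Subalgebra X.O G.C := Algebra.adjoin X.O ({G.h, G.Dinv} : Set G.C)

/-- `D (X) = ∏ (X - a)`. -/
def Dpol : Polynomial X.O := ∏ a ∈ G.roots, (Polynomial.X - Polynomial.C a)

theorem Dinv_aeval : G.Dinv * Polynomial.aeval G.h G.Dpol = 1 := by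
  rw [Dpol, map_prod]
  simpa using G.Dinv_mul

theorem h_mem_hA : G.h ∈ G.hA := Algebra.subset_adjoin (Set.mem_insert _ _)

theorem Dinv_mem_hA : G.Dinv ∈ G.hA := Algebra.subset_adjoin (Set.mem_insert_of_mem _ rfl)

theorem aeval_mem_hA (p : Polynomial X.O) : Polynomial.aeval G.h p ∈ G.hA := by
  induction p using Polynomial.induction_on with
  | C a => rw [Polynomial.aeval_C]; exact G.hA.algebraMap_mem a
  | add p r hp hr => rw [map_add]; exact add_mem hp hr
  | monomial n a _ =>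
    rw [map_mul, map_pow, Polynomial.aeval_C, Polynomial.aeval_X]
    exact mul_mem (G.hA.algebraMap_mem a) (pow_mem G.h_mem_hA _)

/-- An element of `O [h, 1/D]` times a power of `D` is a polynomial in `h`. -/
theorem exists_clear {x : G.C} (hx : x ∈ G.hA) : ∃ (N : ℕ) (p : Polynomial X.O),
    x * Polynomial.aeval G.h G.Dpol ^ N = Polynomial.aeval G.h p := by
  induction hx using Algebra.adjoin_induction with
  | mem z hz =>
    rcases hz with rfl | rfl
    · exact ⟨0, Polynomial.X, by simp⟩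
    · exact ⟨1, 1, by rw [pow_one, G.Dinv_aeval, map_one]⟩
  | algebraMap r => exact ⟨0, Polynomial.C r, by simp⟩
  | add a b _ _ ha hb =>
    obtain ⟨i, p, hp⟩ := ha
    obtain ⟨j, r, hr⟩ := hb
    refine ⟨i + j, p * G.Dpol ^ j + r * G.Dpol ^ i, ?_⟩
    simp only [map_add, map_mul, map_pow, ← hp, ← hr]
    ring
  | mul a b _ _ ha hb =>
    obtain ⟨i, p, hp⟩ := ha
    obtain ⟨j, r, hr⟩ := hb
    refine ⟨i + j, p * r, ?_⟩
    rw [map_mul, ← hp, ← hr]
    ring

theorem redC_aeval (p : Polynomial X.O) :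
    G.redC (Polynomial.aeval G.h p) = G.evh (p.map X.resK) := by
  show _ = Polynomial.eval₂ _ _ _
  rw [Polynomial.eval₂_map, Polynomial.aeval_def, Polynomial.hom_eval₂]
  exact congrArg (fun φ => Polynomial.eval₂ φ G.hbar p) (RingHom.ext fun c => G.redC_algebraMap c)

/-- Elements of `O [h, 1/D]` with zero reduction are divisible by `q` there. -/
theorem exists_q_mul_hA {x : G.C} (hx : x ∈ G.hA) (h : G.redC x = 0) :
    ∃ y ∈ G.hA, x = (q : G.C) * y := by
  have := X.dvr
  obtain ⟨N, p, hp⟩ := G.exists_clear hx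
  have h1 : G.evh (p.map X.resK) = G.evh 0 := by
    rw [← G.redC_aeval, ← hp, map_mul, h, zero_mul, map_zero]
  obtain ⟨r, rfl⟩ := X.C_q_dvd_of_map (G.evh_injective h1)
  refine ⟨Polynomial.aeval G.h r * G.Dinv ^ N,
    mul_mem (G.aeval_mem_hA r) (pow_mem G.Dinv_mem_hA N), ?_⟩
  have h3 : x * (Polynomial.aeval G.h G.Dpol * G.Dinv) ^ N =
      (q : G.C) * (Polynomial.aeval G.h r * G.Dinv ^ N) := by
    rw [mul_pow, ← mul_assoc, hp, map_mul, Polynomial.aeval_C, map_natCast]
    ring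
  rwa [mul_comm _ G.Dinv, G.Dinv_aeval, one_pow, mul_one] at h3

end Model

end FLTAgent.CarayolSquare
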