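import Fermat.Agent.CarayolSquare.Supersingular.BasePoint
import Fermat.Agent.CarayolSquare.Geometry.Single
import Mathlib.RingTheory.Ideal.GoingUp

/-!
# The local ring at a supersingular point

It has two parameters `h_P - h ^ q`, `h_Q - h ^ q`; all three components pass through the point and
it is the only point over its image in the base (`ss_base`, `ss_res_ker`, `ss_cross`,
`ss_unit_mul_pow`).
-/

set_option autoImplicit false

noncomputable section

open ModularCurve Polynomial

namespace FLTAgent.CarayolSquare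

attribute [local instance high] RingHom.instRingHomClass RingHomClass.toAddMonoidHomClass
  AddMonoidHomClass.toAddHomClass AlgHomClass.toRingHomClass RingHomClass.toMonoidHomClass
  MonoidHomClass.toMulHomClass

variable {q : ℕ} [NeZero q] [Fact q.Prime]

namespace Model

variable {X : Ctx q} {M₁ : ℕ} [NeZero M₁] (G : Model X M₁)

/-- Constants in the subring `hSub`. -/
def cS (o : X.O) : G.hSub.toSubring := ⟨_, G.hSub.algebraMap_mem o⟩

omit [Fact (Nat.Prime q)] [NeZero q] in
theorem cS_eq (o : X.O) : (G.cS o : G.splitField) = algebraMap X.O G.splitField o := rfl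

/-- Base functions in the subring `hSub`. -/
def bS : G.C →+* G.hSub.toSubring :=
  G.baseHom.toRingHom.codRestrict G.hSub.toSubring G.baseHom_mem_hSub

/-- The translates of `h` in the subring `hSub`. -/
def xS (b : Bool) : G.hSub.toSubring := ⟨G.hb b, G.hb_mem_hSub b⟩

omit [Fact (Nat.Prime q)] [NeZero q] in
theorem bS_algebraMap (o : X.O) : G.bS (algebraMap X.O G.C o) = G.cS o :=
  Subtype.ext (G.baseHom.commutes o)

omit [Fact (Nat.Prime q)] in
theorem kronecker_hSub (b : Bool) :
    (G.xS b - G.bS G.h ^ q) * (G.xS b ^ q - G.bS G.h) +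
      (q : G.hSub.toSubring) * G.Kpol.eval₂ G.bS (G.xS b) = 0 := by
  refine Subtype.ext ?_
  have e : ((G.Kpol.eval₂ G.bS (G.xS b) : G.hSub.toSubring) : G.splitField) =
      G.Kpol.eval₂ G.baseHom.toRingHom (G.hb b) :=
    Polynomial.hom_eval₂ G.Kpol G.bS G.hSub.toSubring.subtype (G.xS b)
  push_cast
  rw [e]
  exact G.kronecker_field b

variable {G}

/-- The data of a supersingular point. -/
structure SSPoint (P : G.Point G.openChart) : Prop where
  ss : G.Supersingular P

namespace SSPoint

variable {P : G.Point G.openChart}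

/-- The value on base functions. -/
def psi (P : G.Point G.openChart) : G.C →+* X.k := P.φ.comp G.baseO

/-- The value on `hSub`. -/
def phiS (P : G.Point G.openChart) : G.hSub.toSubring →+* X.k :=
  P.φ.comp (Subring.inclusion G.hSub_le_openChart)

theorem psi_algebraMap (o : X.O) : psi P (algebraMap X.O G.C o) = X.resK o :=
  P.const o _ (G.baseHom.commutes o)

theorem phiS_cS (o : X.O) : phiS P (G.cS o) = X.resK o := P.const o _ rfl

theorem phiS_bS (c : G.C) : phiS P (G.bS c) = psi P c := rfl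

theorem psi_hasse (hP : SSPoint P) : psi P G.hasse = 0 := hP.ss _ rfl

theorem value_sq (hP : SSPoint P) : psi P G.h ^ q ^ 2 = psi P G.h :=
  (G.supersingular_value (psi P) psi_algebraMap hP.psi_hasse).1

theorem phiS_xS (hP : SSPoint P) (b : Bool) : phiS P (G.xS b) = psi P G.h ^ q := by
  have := X.charP_k
  have : ExpChar X.k q := ExpChar.prime X.prime
  have h := congrArg (phiS P) (G.kronecker_hSub b)
  simp only [map_add, map_mul, map_natCast, X.natCast_k, zero_mul, add_zero, map_zero, map_sub,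
    map_pow, phiS_bS, mul_eq_zero, sub_eq_zero] at h
  rcases h with h | h
  · exact h
  · refine frobenius_inj X.k q ?_
    rw [frobenius_def, frobenius_def, h, ← pow_mul, ← pow_two, hP.value_sq]

theorem phiS_Kpol_ne (hP : SSPoint P) (b : Bool) :
    phiS P (G.Kpol.eval₂ G.bS (G.xS b)) ≠ 0 := by
  rw [Polynomial.hom_eval₂, hP.phiS_xS b]
  exact (G.supersingular_value (psi P) psi_algebraMap hP.psi_hasse).2

variable (P) in
/-- Elements which, up to a factor invertible at the point, lie in the ideal of two elements. -/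
def Loc2 (x y z : G.hSub.toSubring) : Prop :=
  ∃ s : G.hSub.toSubring, phiS P s ≠ 0 ∧ ∃ a b : G.hSub.toSubring, s * z = a * x + b * y

theorem Loc2.left {x y : G.hSub.toSubring} : Loc2 P x y x :=
  ⟨1, by rw [map_one]; exact one_ne_zero, 1, 0, by ring⟩

theorem Loc2.right {x y : G.hSub.toSubring} : Loc2 P x y y :=
  ⟨1, by rw [map_one]; exact one_ne_zero, 0, 1, by ring⟩

theorem Loc2.add {x y z w : G.hSub.toSubring} (hz : Loc2 P x y z) (hw : Loc2 P x y w) :
    Loc2 P x y (z + w) := by
  obtain ⟨s, hs, a, b, h⟩ := hz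
  obtain ⟨t, ht, a', b', h'⟩ := hw
  exact ⟨s * t, by rw [map_mul]; exact mul_ne_zero hs ht, t * a + s * a', t * b + s * b',
    by linear_combination t * h + s * h'⟩

theorem Loc2.mul {x y z : G.hSub.toSubring} (w : G.hSub.toSubring) (hz : Loc2 P x y z) :
    Loc2 P x y (w * z) := by
  obtain ⟨s, hs, a, b, h⟩ := hz
  exact ⟨s, hs, w * a, w * b, by linear_combination w * h⟩

theorem Loc2.sub {x y z w : G.hSub.toSubring} (hz : Loc2 P x y z) (hw : Loc2 P x y w) :
    Loc2 P x y (z - w) := by
  rw [sub_eq_add_neg, ← neg_one_mul w]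
  exact hz.add (hw.mul _)

theorem Loc2.of_mul {x y z s : G.hSub.toSubring} (hs : phiS P s ≠ 0) (h : Loc2 P x y (s * z)) :
    Loc2 P x y z := by
  obtain ⟨t, ht, a, b, h'⟩ := h
  exact ⟨t * s, by rw [map_mul]; exact mul_ne_zero ht hs, a, b, by linear_combination h'⟩

/-- The first parameter. -/
def px (G : Model X M₁) (b : Bool) : G.hSub.toSubring := G.xS b - G.bS G.h ^ q

/-- **The maximal ideal at a supersingular point.** -/
theorem ker_phiS (hP : SSPoint P) {z : G.hSub.toSubring} (hz : phiS P z = 0) :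
    Loc2 P (px G true) (px G false) z := by
  classical
  have := X.charP_k
  have := X.dvr
  set J := Loc2 P (px G true) (px G false) with hJ
  have hzero : J 0 := ⟨1, by rw [map_one]; exact one_ne_zero, 0, 0, by ring⟩
  -- the identity `δ ^ (q-1) x y = q U`
  set H := G.bS G.h
  set xT := G.xS true
  set xF := G.xS false
  set KT := G.Kpol.eval₂ G.bS xT with hKT
  set KF := G.Kpol.eval₂ G.bS xF with hKF
  set δ := xT - xF with hδ
  obtain ⟨r, hr⟩ := exists_add_pow_prime_eq (R := G.hSub.toSubring) X.prime xF δ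
  obtain ⟨E, hE⟩ : δ ∣ KT - KF := by
    have := Polynomial.sub_dvd_eval_sub xT xF (G.Kpol.map G.bS)
    rwa [Polynomial.eval_map, Polynomial.eval_map] at this
  have hT := G.kronecker_hSub true
  have hF := G.kronecker_hSub false
  set U := KF - E * px G false - xF * r * (px G true * px G false) with hU
  have hδ0 : δ ≠ 0 := fun h => G.hb_true_ne (congrArg Subtype.val (sub_eq_zero.mp h))
  have hid : δ ^ (q - 1) * (px G true * px G false) = (q : G.hSub.toSubring) * U := by
    refine mul_left_cancel₀ hδ0 ?_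
    rw [← mul_assoc, ← pow_succ', Nat.sub_add_cancel X.prime.one_le, hU]
    rw [show xF + δ = xT by rw [hδ]; ring] at hr
    simp only [px] at *
    linear_combination (-(xT - H ^ q) * (xF - H ^ q)) * hr + (xF - H ^ q) * hT -
      (xT - H ^ q) * hF + ((q : G.hSub.toSubring) * (-(xF - H ^ q))) * hE +
      ((q : G.hSub.toSubring) * KF) * hδ.symm
  have hxval : ∀ b, phiS P (px G b) = 0 := fun b => by
    rw [px, map_sub, hP.phiS_xS, map_pow, phiS_bS, sub_self]
  have hUφ : phiS P U ≠ 0 := by
    rw [hU, map_sub, map_sub, map_mul, map_mul, map_mul, map_mul, hxval, hxval, mul_zero, mul_zero,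
      mul_zero, sub_zero, sub_zero]
    exact hP.phiS_Kpol_ne false
  have hq : J (q : G.hSub.toSubring) := by
    refine Loc2.of_mul hUφ ?_
    rw [mul_comm, ← hid]
    exact (Loc2.mul _ Loc2.right).mul _
  -- `h - c`
  set c : X.k := psi P G.h with hc
  obtain ⟨c₀, hc₀⟩ := X.resK_surjective c
  obtain ⟨c₁, hc₁⟩ := X.resK_surjective (c ^ q)
  have hdiv : ∀ o : X.O, X.resK o = 0 → J (G.cS o) := fun o ho => by
    obtain ⟨d, rfl⟩ := (X.resK_eq_zero_iff o).mp ho
    have e : G.cS ((q : X.O) * d) = G.cS d * (q : G.hSub.toSubring) := by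
      refine Subtype.ext ?_
      push_cast
      rw [cS_eq, cS_eq, map_mul, map_natCast, mul_comm]
    rw [e]
    exact Loc2.mul _ hq
  have hcsub : ∀ o o' : X.O, G.cS (o - o') = G.cS o - G.cS o' := fun o o' => Subtype.ext (by
    push_cast; rw [cS_eq, cS_eq, cS_eq, map_sub])
  have hcpow : ∀ (o : X.O) (i : ℕ), G.cS (o ^ i) = G.cS o ^ i := fun o i => Subtype.ext (by
    push_cast; rw [cS_eq, cS_eq, map_pow])
  have hyT : J (xT ^ q - H) := by
    refine Loc2.of_mul hUφ ?_
    have hx0 : px G true ≠ 0 := fun h0 => by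
      have h1 : G.red none (G.hb true - G.baseHom G.h ^ q) = 0 := by
        rw [show G.hb true - G.baseHom G.h ^ q =
            ((px G true : G.hSub.toSubring) : G.splitField) from
          rfl, h0]
        exact G.red_zero none
      have hm := G.baseHom_mem_V none G.h
      rw [G.red_sub (G.openChart_le_V none (G.hb_mem_openChart true)) (pow_mem hm q),
        G.red_pow hm, G.red_baseHom_qExpand, G.red_hb, if_neg (by simp), ← map_pow] at h1
      exact G.gbar_ne_zero (by rw [← G.hbar_pow]; exact h1)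
    have e : U * (xT ^ q - H) = -(δ ^ (q - 1) * KT) * px G false := by
      refine mul_left_cancel₀ hx0 ?_
      have hT' : px G true * (xT ^ q - H) + (q : G.hSub.toSubring) * KT = 0 := hT
      linear_combination U * hT' + KT * hid
    rw [e]
    exact Loc2.mul _ Loc2.right
  have hh : J (H - G.cS c₀) := by
    set e := xT - G.cS c₁ with he
    obtain ⟨r', hr'⟩ := exists_add_pow_prime_eq (R := G.hSub.toSubring) X.prime (G.cS c₁) e
    obtain ⟨A, hA⟩ : (H - G.cS c₀) ∣ H ^ q - G.cS c₀ ^ q := sub_dvd_pow_sub_pow _ _ _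
    -- `e = x + (h - c) A + (multiple of q)`
    have he' : J (e - (H - G.cS c₀) * A) := by
      have h2 : e - (H - G.cS c₀) * A = px G true + G.cS (c₀ ^ q - c₁) := by
        rw [← hA, hcsub, hcpow, he, px]; ring
      rw [h2]
      exact Loc2.add Loc2.left (hdiv _ (by rw [map_sub, map_pow, hc₀, hc₁, sub_self]))
    obtain ⟨i, hi⟩ : ∃ i, q = 2 + i := Nat.exists_eq_add_of_le X.prime.two_le
    have hepow : J (e ^ q - (H - G.cS c₀) ^ 2 * (A ^ 2 * e ^ i)) := by
      have h2 : e ^ q - (H - G.cS c₀) ^ 2 * (A ^ 2 * e ^ i) =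
          (e ^ i * (e + (H - G.cS c₀) * A)) * (e - (H - G.cS c₀) * A) := by
        rw [show e ^ q = e ^ (2 + i) by rw [← hi], pow_add]
        ring
      rw [h2]
      exact he'.mul _
    have hmain : J ((H - G.cS c₀) * (1 - (H - G.cS c₀) * (A ^ 2 * e ^ i))) := by
      have h2 : (H - G.cS c₀) * (1 - (H - G.cS c₀) * (A ^ 2 * e ^ i)) =
          (e ^ q - (H - G.cS c₀) ^ 2 * (A ^ 2 * e ^ i)) + (G.cS c₁ * e * r') *
              (q : G.hSub.toSubring)
            - (xT ^ q - H) + G.cS (c₁ ^ q - c₀) := by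
        rw [show G.cS c₁ + e = xT by rw [he]; ring] at hr'
        rw [hcsub, hcpow]
        linear_combination hr'
      rw [h2]
      refine Loc2.add (Loc2.sub (Loc2.add hepow (Loc2.mul _ hq)) hyT) (hdiv _ ?_)
      rw [map_sub, map_pow, hc₁, hc₀, ← pow_mul, ← pow_two, hP.value_sq, sub_self]
    refine Loc2.of_mul (s := 1 - (H - G.cS c₀) * (A ^ 2 * e ^ i)) ?_ (by rwa [mul_comm])
    rw [map_sub, map_one, map_mul, map_sub, phiS_cS, hc₀, show phiS P H = c from rfl, sub_self,
      zero_mul, sub_zero]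
    exact one_ne_zero
  -- kernel of the point on the base
  have hbase : ∀ z : G.C, psi P z = 0 → J (G.bS z) := by
    intro z hz
    obtain ⟨e, he, hez⟩ := G.exists_mul_mem_span (psi P) psi_algebraMap hc₀ hz
    refine Loc2.of_mul (s := G.bS e) he ?_
    rw [← map_mul]
    obtain ⟨a, b, hab⟩ := Ideal.mem_span_pair.mp hez
    rw [← hab, map_add, map_mul, map_mul, map_natCast, map_sub, bS_algebraMap]
    exact (hq.mul _).add (hh.mul _)
  -- all elements are congruent to constants
  have hall : ∀ z : G.hSub.toSubring, ∃ o : X.O, J (z - G.cS o) := by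
    rintro ⟨z, hz⟩
    induction hz using Algebra.adjoin_induction with
    | mem w hw =>
      rcases hw with ⟨t, -, rfl⟩ | hw
      · obtain ⟨o, ho⟩ := X.resK_surjective (psi P t)
        refine ⟨o, ?_⟩
        have := hbase (t - algebraMap X.O G.C o) (by rw [map_sub, psi_algebraMap, ho, sub_self])
        rwa [map_sub, bS_algebraMap] at this
      · refine ⟨c₁, ?_⟩
        have key : ∀ b, J (G.xS b - G.cS c₁) := fun b => by
          obtain ⟨A, hA⟩ : (H - G.cS c₀) ∣ H ^ q - G.cS c₀ ^ q := sub_dvd_pow_sub_pow _ _ _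
          have h2 : G.xS b - G.cS c₁ = px G b + A * (H - G.cS c₀) + G.cS (c₀ ^ q - c₁) := by
            rw [mul_comm A, ← hA, hcsub, hcpow, px]; ring
          rw [h2]
          refine Loc2.add (Loc2.add ?_ (hh.mul _))
            (hdiv _ (by rw [map_sub, map_pow, hc₀, hc₁, sub_self]))
          cases b
          · exact Loc2.right
          · exact Loc2.left
        rcases hw with rfl | rfl
        · exact key true
        · exact key false
    | algebraMap o =>
        exact ⟨o, by rw [show (⟨_, _⟩ : G.hSub.toSubring) = G.cS o from rfl, sub_self]; exact hzero⟩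
    | add a b ha hb ha' hb' =>
      obtain ⟨o, ho⟩ := ha'
      obtain ⟨o', ho'⟩ := hb'
      refine ⟨o + o', ?_⟩
      have e : (⟨a + b, add_mem ha hb⟩ : G.hSub.toSubring) - G.cS (o + o') =
          (⟨a, ha⟩ - G.cS o) + (⟨b, hb⟩ - G.cS o') := Subtype.ext (by
        push_cast; rw [cS_eq, cS_eq, cS_eq, map_add]; ring)
      rw [e]
      exact ho.add ho'
    | mul a b ha hb ha' hb' =>
      obtain ⟨o, ho⟩ := ha'
      obtain ⟨o', ho'⟩ := hb'
      refine ⟨o * o', ?_⟩
      have e : (⟨a * b, mul_mem ha hb⟩ : G.hSub.toSubring) - G.cS (o * o') =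
          ⟨b, hb⟩ * (⟨a, ha⟩ - G.cS o) + G.cS o * (⟨b, hb⟩ - G.cS o') := Subtype.ext (by
        push_cast; rw [cS_eq, cS_eq, cS_eq, map_mul]; ring)
      rw [e]
      exact (ho.mul _).add (ho'.mul _)
  obtain ⟨o, ho⟩ := hall z
  have hφJ : ∀ w, J w → phiS P w = 0 := fun w hw => by
    obtain ⟨s, hs, a, b, h⟩ := hw
    have := congrArg (phiS P) h
    rw [map_mul, map_add, map_mul, map_mul, hxval, hxval, mul_zero, mul_zero, add_zero] at this
    exact (mul_eq_zero.mp this).resolve_left hs
  have ho0 : X.resK o = 0 := by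
    have := hφJ _ ho
    rw [map_sub, hz, phiS_cS, zero_sub, neg_eq_zero] at this
    exact this
  rw [show z = (z - G.cS o) + G.cS o by ring]
  exact ho.add (hdiv o ho0)

/-! ### Primes above the point of the base -/

/-- A prime of the open chart over the point of the base is the kernel of the point on `hSub`. -/
theorem prime_inter_hSub (hP : SSPoint P) (Q : Ideal G.openChart) [Q.IsPrime]
    (hQ : ∀ c : G.C, G.baseO c ∈ Q ↔ psi P c = 0) (z : G.hSub.toSubring) :
    Subring.inclusion G.hSub_le_openChart z ∈ Q ↔ phiS P z = 0 := by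
  have := X.charP_k
  set ι := Subring.inclusion G.hSub_le_openChart
  have hcQ : ∀ o : X.O, ι (G.cS o) ∈ Q ↔ X.resK o = 0 := fun o => by
    rw [← psi_algebraMap (P := P) o, ← hQ, ← G.bS_algebraMap]
    rfl
  obtain ⟨c₀, hc₀⟩ := X.resK_surjective (psi P G.h)
  obtain ⟨c₁, hc₁⟩ := X.resK_surjective (psi P G.h ^ q)
  have hH : ι (G.bS G.h - G.cS c₀) ∈ Q := by
    rw [← G.bS_algebraMap, ← map_sub]
    show G.baseO (G.h - algebraMap X.O G.C c₀) ∈ Q
    rw [hQ, map_sub, psi_algebraMap, hc₀, sub_self]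
  have hqQ : ι (q : G.hSub.toSubring) ∈ Q := by
    rw [show (q : G.hSub.toSubring) = G.cS (q : X.O) from Subtype.ext (by
      push_cast; rw [cS_eq, map_natCast]), hcQ, map_natCast, X.natCast_k]
  let mk : G.hSub.toSubring →+* G.openChart ⧸ Q := (Ideal.Quotient.mk Q).comp ι
  have hmk : ∀ w, ι w ∈ Q ↔ mk w = 0 := fun w => Ideal.Quotient.eq_zero_iff_mem.symm
  have : IsDomain (G.openChart ⧸ Q) := Ideal.Quotient.isDomain Q
  have hx : ∀ b, ι (G.xS b - G.cS c₁) ∈ Q := fun b => by
    rw [hmk, map_sub, sub_eq_zero]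
    have hH' : mk (G.bS G.h) = mk (G.cS c₀) := sub_eq_zero.mp (by rw [← map_sub, ← hmk]; exact hH)
    have hc : ∀ o o' : X.O, X.resK o = X.resK o' → mk (G.cS o) = mk (G.cS o') := fun o o' h => by
      rw [← sub_eq_zero, ← map_sub, ← hmk,
          show G.cS o - G.cS o' = G.cS (o - o') from Subtype.ext (by
        push_cast; rw [cS_eq, cS_eq, cS_eq, map_sub]), hcQ, map_sub, h, sub_self]
    have hcpow : ∀ (o : X.O), mk (G.cS o) ^ q = mk (G.cS (o ^ q)) := fun o => by
      rw [← map_pow]; exact congrArg mk (Subtype.ext (by push_cast; rw [cS_eq, cS_eq, map_pow]))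
    have h := congrArg mk (G.kronecker_hSub b)
    simp only [map_add, map_mul, (hmk _).mp hqQ, zero_mul, add_zero, map_zero, map_sub,
      map_pow, hH', mul_eq_zero, sub_eq_zero] at h
    rcases h with h | h
    · rw [h, hcpow]
      exact hc _ _ (by rw [map_pow, hc₀, hc₁])
    · have hq0 : (q : G.openChart ⧸ Q) = 0 := by rw [← map_natCast mk]; exact (hmk _).mp hqQ
      have : CharP (G.openChart ⧸ Q) q := (CharP.charP_iff_prime_eq_zero X.prime).mpr hq0
      have : ExpChar (G.openChart ⧸ Q) q := ExpChar.prime X.prime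
      refine frobenius_inj (G.openChart ⧸ Q) q ?_
      rw [frobenius_def, frobenius_def, h, hcpow]
      exact hc _ _ (by rw [map_pow, hc₀, hc₁, ← pow_mul, ← pow_two, hP.value_sq])
  have hall : ∀ z : G.hSub.toSubring, ∃ o : X.O, ι (z - G.cS o) ∈ Q ∧ phiS P z = X.resK o := by
    rintro ⟨z, hz⟩
    induction hz using Algebra.adjoin_induction with
    | mem w hw =>
      rcases hw with ⟨t, -, rfl⟩ | hw
      · obtain ⟨o, ho⟩ := X.resK_surjective (psi P t)
        refine ⟨o, ?_, ho.symm⟩
        show G.baseO t - ι (G.cS o) ∈ Q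
        rw [← G.bS_algebraMap, show ι (G.bS (algebraMap X.O G.C o)) = G.baseO (algebraMap X.O G.C o)
          from rfl, ← map_sub, hQ, map_sub, psi_algebraMap, ho, sub_self]
      · rcases hw with rfl | rfl
        · exact ⟨c₁, hx true, (hP.phiS_xS true).trans hc₁.symm⟩
        · exact ⟨c₁, hx false, (hP.phiS_xS false).trans hc₁.symm⟩
    | algebraMap o =>
      exact ⟨o, by rw [show (⟨_, _⟩ : G.hSub.toSubring) = G.cS o from rfl, sub_self, map_zero]
                   exact Q.zero_mem, phiS_cS o⟩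
    | add a b ha hb ha' hb' =>
      obtain ⟨o, ho, hφ⟩ := ha'
      obtain ⟨o', ho', hφ'⟩ := hb'
      refine ⟨o + o', ?_, ?_⟩
      · rw [show (⟨a + b, add_mem ha hb⟩ : G.hSub.toSubring) - G.cS (o + o') =
          (⟨a, ha⟩ - G.cS o) + (⟨b, hb⟩ - G.cS o') from Subtype.ext (by
            push_cast; rw [cS_eq, cS_eq, cS_eq, map_add]; ring), map_add]
        exact add_mem ho ho'
      · rw [show (⟨a + b, _⟩ : G.hSub.toSubring) = ⟨a, ha⟩ + ⟨b, hb⟩ from rfl, map_add, hφ, hφ',
          map_add]
    | mul a b ha hb ha' hb' =>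
      obtain ⟨o, ho, hφ⟩ := ha'
      obtain ⟨o', ho', hφ'⟩ := hb'
      refine ⟨o * o', ?_, ?_⟩
      · rw [show (⟨a * b, mul_mem ha hb⟩ : G.hSub.toSubring) - G.cS (o * o') =
          ⟨b, hb⟩ * (⟨a, ha⟩ - G.cS o) + G.cS o * (⟨b, hb⟩ - G.cS o') from Subtype.ext (by
            push_cast; rw [cS_eq, cS_eq, cS_eq, map_mul]; ring), map_add, map_mul, map_mul]
        exact add_mem (Q.mul_mem_left _ ho) (Q.mul_mem_left _ ho')
      · rw [show (⟨a * b, _⟩ : G.hSub.toSubring) = ⟨a, ha⟩ * ⟨b, hb⟩ from rfl, map_mul, hφ, hφ',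
          map_mul]
  obtain ⟨o, ho, hφ⟩ := hall z
  rw [hφ, ← hcQ]
  constructor
  · intro h
    have := sub_mem h ho
    rwa [← map_sub, sub_sub_cancel] at this
  · intro h
    have := add_mem ho h
    rwa [← map_add, sub_add_cancel] at this

variable (P) in
/-- There is a prime of the open chart over the point of the base above any given prime below it. -/
theorem exists_prime (I : Ideal G.openChart) (hI : ∀ c : G.C, G.baseO c ∈ I → psi P c = 0) :
    ∃ Q : Ideal G.openChart, Q.IsPrime ∧ I ≤ Q ∧ ∀ c : G.C, G.baseO c ∈ Q ↔ psi P c = 0 := by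
  let : Algebra G.C G.openChart := G.baseO.toAlgebra
  have : Algebra.IsIntegral G.C G.openChart := ⟨fun z => by
    obtain ⟨p, hp, hpz⟩ := G.mem_openChart_iff.mp z.2
    obtain ⟨p', hp', -, hpm⟩ := lifts_and_degree_eq_and_monic (f := G.baseHom.toRingHom)
      (p := p.map (algebraMap _ G.splitField)) ((lifts_iff_coeff_lifts _).mpr fun n => by
        rw [coeff_map]
        have h := (p.coeff n).2
        obtain ⟨a, -, e⟩ := Subalgebra.mem_map.mp ((SetLike.ext_iff.mp G.map_hA _).mpr h)
        exact ⟨a, e⟩) (hp.map _)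
    refine ⟨p', hpm, G.openChart.subtype_injective ?_⟩
    rw [map_zero, Polynomial.hom_eval₂, RingHom.algebraMap_toAlgebra]
    show p'.eval₂ G.baseHom.toRingHom (z : G.splitField) = 0
    rw [← eval_map, hp', eval_map]
    exact hpz⟩
  have : (RingHom.ker (psi P)).IsPrime := RingHom.ker_isPrime _
  obtain ⟨Q, hQI, hQp, hQ⟩ := Ideal.exists_ideal_over_prime_of_isIntegral (RingHom.ker (psi P)) I
    fun c hc => hI c hc
  refine ⟨Q, hQp, hQI, fun c => ?_⟩
  rw [← RingHom.mem_ker, ← hQ]
  rfl

/-- The three components pass through the point, on `hSub`. -/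
theorem centred_hSub (hP : SSPoint P) (κ : Option Bool) {z : G.hSub.toSubring}
    (hz : G.red κ (z : G.splitField) = 0) : phiS P z = 0 := by
  let ρ : G.openChart →+* LaurentSeries X.k :=
    (G.resV κ).comp (G.openChart.subtype.codRestrict (G.V κ).toSubring
      fun w => G.openChart_le_V κ w.2)
  have hρ : ∀ w : G.openChart, ρ w = G.red κ (w : G.splitField) := fun w =>
    (G.red_eq (G.openChart_le_V κ w.2)).symm
  obtain ⟨Q, hQp, hQI, hQ⟩ := exists_prime P (RingHom.ker ρ) fun c hc => by
    rw [RingHom.mem_ker, hρ, G.coe_baseO, G.red_baseHom_qExpand, map_eq_zero_iff _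
      (qExpand_injective q)] at hc
    obtain ⟨c', rfl⟩ := (G.redC_eq_zero_iff_dvd c).mp hc
    rw [map_mul, map_natCast, X.natCast_k, zero_mul]
  refine (hP.prime_inter_hSub Q hQ z).mp (hQI ?_)
  rw [RingHom.mem_ker, hρ]
  exact hz

/-- The regular point with a chosen component. -/
def regPt (hP : SSPoint P) (κ : Option Bool) (x y : G.hSub.toSubring)
    (hgen : ∀ z, Loc2 P (px G true) (px G false) z → Loc2 P x y z)
    (hx : phiS P x = 0) (hy : phiS P y = 0) (hxκ : G.red κ (x : G.splitField) = 0)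
    (hx0 : (x : G.splitField) ≠ 0) (hyκ : G.red κ (y : G.splitField) ≠ 0) :
    RegPoint G.openChart P.φ where
  S := G.hSub.toSubring
  le := G.hSub_le_openChart
  noeth := G.isNoetherianRing_hSub
  frac := G.frac_hSub
  integral _ hb := G.isIntegral_hSub hb
  x := x
  y := y
  φ_x := hx
  φ_y := hy
  gen z hz := by
    obtain ⟨s, hs, a, b, h⟩ := hgen z (hP.ker_phiS hz)
    exact ⟨s, hs, a, b, h⟩
  V := G.V κ
  le_V _ hb := G.openChart_le_V κ hb
  x_ne := hx0
  x_lt := (G.red_eq_zero_iff (G.openChart_le_V κ (G.hSub_le_openChart x.2))).mp hxκ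
  y_unit := by
    have hm := G.openChart_le_V κ (G.hSub_le_openChart y.2)
    refine le_antisymm (((G.V κ).valuation_le_one_iff _).mpr hm) (not_lt.mp fun h => ?_)
    exact hyκ ((G.red_eq_zero_iff hm).mpr h)

theorem regPt_centred (hP : SSPoint P) (κ : Option Bool) (x y : G.hSub.toSubring) (hgen hx hy hxκ
    hx0 hyκ) : (hP.regPt κ x y hgen hx hy hxκ hx0 hyκ).Centred := fun s hs => by
  have hm := G.openChart_le_V κ (G.hSub_le_openChart s.2)
  refine le_antisymm (((G.V κ).valuation_le_one_iff _).mpr hm) (not_lt.mp fun h => hs ?_)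
  exact hP.centred_hSub κ ((G.red_eq_zero_iff hm).mpr h)

theorem red_px (κ : Option Bool) (b : Bool) :
    G.red κ ((px G b : G.hSub.toSubring) : G.splitField) =
      if κ = some b then 0 else G.hbar - qExpand X.k q (qExpand X.k q G.hbar) := by
  have hm := G.baseHom_mem_V κ G.h
  show G.red κ (G.hb b - G.baseHom G.h ^ q) = _
  rw [G.red_sub (G.openChart_le_V κ (G.hb_mem_openChart b)) (pow_mem hm q), G.red_pow hm,
    G.red_baseHom_qExpand, G.red_hb, ← map_pow, show G.redC G.h = G.hbar from rfl, G.hbar_pow]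
  split_ifs
  · exact sub_self _
  · rfl

/-- The regular point on the component `(∞, b)`. -/
theorem exists_regPt (hP : SSPoint P) : ∃ R : RegPoint G.openChart P.φ,
    R.S = G.hSub.toSubring ∧ R.Centred ∧ R.x.1 = G.hb true - G.baseHom G.h ^ q ∧
      R.y.1 = G.hb false - G.baseHom G.h ^ q := by
  have := X.charP_k
  have hxval : ∀ b, phiS P (px G b) = 0 := fun b => by
    rw [px, map_sub, hP.phiS_xS, map_pow, phiS_bS, sub_self]
  have h1 : G.red (some true) ((px G false : G.hSub.toSubring) : G.splitField) ≠ 0 := by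
    rw [red_px, if_neg (by simp)]; exact G.gbar_ne_zero
  have h2 : ((px G true : G.hSub.toSubring) : G.splitField) ≠ 0 := fun h0 => by
    have h := red_px (G := G) none true
    rw [h0, G.red_zero, if_neg (by simp)] at h
    exact G.gbar_ne_zero h.symm
  exact ⟨hP.regPt (some true) (px G true) (px G false) (fun _ h => h) (hxval _) (hxval _)
    (by rw [red_px, if_pos rfl]) h2 h1, rfl, hP.regPt_centred _ _ _ _ _ _ _ _ _, rfl, rfl⟩

/-- Elements of the open chart are quotients of elements of `hSub`, units at the point below. -/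
theorem exists_frac (hP : SSPoint P) (z : G.openChart) : ∃ a s : G.hSub.toSubring,
    phiS P s ≠ 0 ∧ z * Subring.inclusion G.hSub_le_openChart s =
      Subring.inclusion G.hSub_le_openChart a := by
  obtain ⟨R, hS, hc, -, -⟩ := hP.exists_regPt
  obtain ⟨⟨a, ha⟩, ⟨s, hs'⟩, hs, h⟩ := R.B_le_loc hc z.2
  have hs0 : R.ψ ⟨s, hs'⟩ ≠ 0 := hs
  exact ⟨⟨a, hS ▸ ha⟩, ⟨s, hS ▸ hs'⟩, hs0, Subtype.ext h⟩

/-- A prime of the open chart over the point of the base is the point. -/
theorem mem_prime_iff (hP : SSPoint P) (Q : Ideal G.openChart) [Q.IsPrime]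
    (hQ : ∀ c : G.C, G.baseO c ∈ Q ↔ psi P c = 0) (z : G.openChart) : z ∈ Q ↔ P.φ z = 0 := by
  obtain ⟨a, s, hs, h⟩ := hP.exists_frac z
  have hsQ : Subring.inclusion G.hSub_le_openChart s ∉ Q :=
    fun hh => hs ((hP.prime_inter_hSub Q hQ s).mp hh)
  have hφ : P.φ z = 0 ↔ phiS P a = 0 := by
    have h1 : P.φ z * phiS P s = phiS P a := by
      have := congrArg P.φ h
      rwa [map_mul] at this
    rw [← h1, mul_eq_zero]
    exact ⟨Or.inl, fun h2 => h2.resolve_right hs⟩
  rw [hφ, ← hP.prime_inter_hSub Q hQ a, ← h]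
  exact ⟨fun hz => Q.mul_mem_right _ hz, fun hz =>
    ((Ideal.IsPrime.mem_or_mem inferInstance hz).resolve_right hsQ)⟩

end SSPoint

variable (G)

/-- The three components pass through a supersingular point. -/
theorem ss_res_ker {P : G.Point G.openChart} (hP : G.Supersingular P) (κ : Option Bool)
    (z : G.openChart) (hz : G.red κ (z : G.splitField) = 0) : P.φ z = 0 := by
  let ρ : G.openChart →+* LaurentSeries X.k :=
    (G.resV κ).comp (G.openChart.subtype.codRestrict (G.V κ).toSubring
      fun w => G.openChart_le_V κ w.2)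
  have hρ : ∀ w : G.openChart, ρ w = G.red κ (w : G.splitField) := fun w =>
    (G.red_eq (G.openChart_le_V κ w.2)).symm
  have hS : SSPoint P := ⟨hP⟩
  obtain ⟨Q, hQp, hQI, hQ⟩ := SSPoint.exists_prime P (RingHom.ker ρ) fun c hc => by
    rw [RingHom.mem_ker, hρ, G.coe_baseO, G.red_baseHom_qExpand, map_eq_zero_iff _
      (qExpand_injective q)] at hc
    obtain ⟨c', rfl⟩ := (G.redC_eq_zero_iff_dvd c).mp hc
    rw [map_mul, map_natCast, X.natCast_k, zero_mul]
  refine (hS.mem_prime_iff Q hQ z).mp (hQI ?_)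
  rw [RingHom.mem_ker, hρ]
  exact hz

/-- A supersingular point is the only point over its image in the base. -/
theorem ss_base {P : G.Point G.openChart} (hP : G.Supersingular P) (s : G.openChart)
    (hs : P.φ s ≠ 0) : ∃ a b : G.openChart, P.φ b ≠ 0 ∧ (b : G.splitField) ∈ G.B₀ ∧ s * a = b := by
  have hS : SSPoint P := ⟨hP⟩
  by_contra hcon
  push Not at hcon
  obtain ⟨Q, hQp, hQI, hQ⟩ := SSPoint.exists_prime P (Ideal.span {s}) fun c hc => by
    obtain ⟨a, ha⟩ := Ideal.mem_span_singleton.mp hc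
    by_contra h0
    exact hcon a (G.baseO c) h0 (IntermediateField.subset_adjoin _ _ ⟨c, rfl⟩) ha.symm
  exact hs ((hS.mem_prime_iff Q hQ s).mp (hQI (Ideal.mem_span_singleton_self s)))

/-- Elements vanishing at a supersingular point come from the two parameters. -/
theorem ss_cross {P : G.Point G.openChart} (hP : G.Supersingular P) (z : G.openChart)
    (hz : P.φ z = 0) : ∃ s a b : G.openChart, P.φ s ≠ 0 ∧
      G.red (some true) (a : G.splitField) = 0 ∧ G.red (some false) (b : G.splitField) = 0 ∧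
        s * z = a + b := by
  have hS : SSPoint P := ⟨hP⟩
  obtain ⟨a₀, s₀, hs₀, h₀⟩ := hS.exists_frac z
  have ha₀ : SSPoint.phiS P a₀ = 0 := by
    have := congrArg P.φ h₀
    rw [map_mul, hz, zero_mul] at this
    exact this.symm
  obtain ⟨t, ht, u, v, he⟩ := hS.ker_phiS ha₀
  set ι := Subring.inclusion G.hSub_le_openChart
  refine ⟨ι (t * s₀), ι (u * SSPoint.px G true), ι (v * SSPoint.px G false), ?_, ?_, ?_, ?_⟩
  · show SSPoint.phiS P (t * s₀) ≠ 0
    rw [map_mul]
    exact mul_ne_zero ht hs₀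
  · show G.red _ ((u : G.splitField) * _) = 0
    rw [G.red_mul (G.openChart_le_V _ (G.hSub_le_openChart u.2))
      (G.openChart_le_V _ (G.hSub_le_openChart (SSPoint.px G true).2)), SSPoint.red_px, if_pos rfl,
      mul_zero]
  · show G.red _ ((v : G.splitField) * _) = 0
    rw [G.red_mul (G.openChart_le_V _ (G.hSub_le_openChart v.2))
      (G.openChart_le_V _ (G.hSub_le_openChart (SSPoint.px G false).2)), SSPoint.red_px, if_pos rfl,
      mul_zero]
  · rw [← map_add, ← he, map_mul, map_mul, mul_assoc, mul_comm (ι s₀), h₀]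

/-- Functions with divisible orders are units times powers at a supersingular point. -/
theorem ss_unit_mul_pow {P : G.Point G.openChart} (hP : G.Supersingular P) {m : ℕ} (hm : 0 < m)
    {f : G.splitField} (hf : G.Unit0 f)
    (hor : ∀ W : ValuationSubring G.splitField, (∀ c : X.K, algebraMap X.K G.splitField c ∈ W) →
      G.baseHom G.h ∈ W → G.baseHom G.Dinv ∈ W →
        ∃ g : G.splitField, g ≠ 0 ∧ W.valuation f = W.valuation (g ^ m)) :
    ∃ (a b : G.openChart) (h : G.splitField), P.φ a ≠ 0 ∧ P.φ b ≠ 0 ∧ G.Unit0 h ∧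
      f * (b : G.splitField) = (a : G.splitField) * h ^ m := by
  have hS : SSPoint P := ⟨hP⟩
  obtain ⟨R, hRS, hc, -, -⟩ := hS.exists_regPt
  have hO : ∀ c, algebraMap X.O G.splitField c ∈ R.S := fun c => hRS ▸ G.hSub.algebraMap_mem c
  have hh : G.baseHom G.h ∈ R.S := hRS ▸ G.baseHom_mem_hSub _
  have hD : G.baseHom G.Dinv ∈ R.S := hRS ▸ G.baseHom_mem_hSub _
  have hdiv := G.divisibleAt_of_unit0 R hO (G.vertGeneric_openChart R hO hh hD) hf
    fun W hW hK => hor W hK (hW _ (R.mem_loc_of_mem hh)) (hW _ (R.mem_loc_of_mem hD))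
  obtain ⟨u, h, hu, hh0, hfu⟩ := R.exists_unit_mul_pow_of_divisible hc hf.ne_zero hm hdiv
  obtain ⟨a, s, hs, has⟩ := u.2
  have ha : P.φ (Subring.inclusion R.le a) ≠ 0 := by
    intro h0
    have h1 : a ∈ R.point := h0
    refine (IsLocalRing.mem_maximalIdeal _).mp
      ((IsLocalization.AtPrime.to_map_mem_maximal_iff R.loc R.point a).mpr h1) ?_
    rw [show algebraMap R.S R.loc a = u * algebraMap R.S R.loc s from Subtype.ext has.symm]
    exact hu.mul (R.isUnit_of_notMem hs)
  refine ⟨Subring.inclusion R.le a, Subring.inclusion R.le s, h, ha, hs, ⟨hh0, fun κ => ?_⟩, ?_⟩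
  · have hau : G.Unit0 (a : G.splitField) := unit0_of_red fun κ =>
      ⟨G.openChart_le_V κ (R.le a.2), fun h0 => ha (G.ss_res_ker hP κ _ h0)⟩
    have hsu : G.Unit0 (s : G.splitField) := unit0_of_red fun κ =>
      ⟨G.openChart_le_V κ (R.le s.2), fun h0 => hs (G.ss_res_ker hP κ _ h0)⟩
    have hu0 : (u : G.splitField) ≠ 0 := fun h0 => by
      rw [h0, zero_mul] at has; exact hau.ne_zero has.symm
    have e1 : G.ord κ (u : G.splitField) = 0 := by
      have := congrArg (G.ord κ) has
      rw [G.ord_mul κ hu0 hsu.ne_zero, hau.ord_eq, hsu.ord_eq, add_zero] at this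
      exact this
    have e2 := hf.ord_eq κ
    rw [hfu, G.ord_mul κ hu0 (pow_ne_zero m hh0), e1, zero_add, G.ord_pow κ hh0] at e2
    exact (mul_eq_zero.mp e2).resolve_left (by exact_mod_cast hm.ne')
  · show f * (s : G.splitField) = (a : G.splitField) * h ^ m
    rw [hfu, ← has]
    ring

end Model

end FLTAgent.CarayolSquare
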