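import Fermat.Agent.CarayolSquare.Geometry.Final
import Fermat.Agent.CarayolSquare.Geometry.Single

/-!
# Norms at the only point over its image

At a point of the open chart which is the only point over its image in the base (`OnlyPoint`) all
conjugates of a function have the same value, so norms have the obvious values (`norm_LF_val`,
`norm_B₀_val`).
-/

set_option autoImplicit false

noncomputable section

namespace FLTAgent.CarayolSquare

variable {q : ℕ} [NeZero q] [Fact q.Prime]

namespace Model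

variable {X : Ctx q} {M₁ : ℕ} [NeZero M₁] {G : Model X M₁}

namespace Point

variable (P : G.Point G.openChart)

omit [Fact (Nat.Prime q)] [NeZero q] in
theorem coe_ne_zero_of_φ_ne {s : G.openChart} (hs : P.φ s ≠ 0) : (s : G.splitField) ≠ 0 :=
  fun h => hs (by rw [show s = 0 from Subtype.ext h, map_zero])

/-- The functions regular at the point. -/
def loc : Subring G.splitField where
  carrier := {z | ∃ a s : G.openChart, P.φ s ≠ 0 ∧ z * s = a}
  one_mem' := ⟨1, 1, by rw [map_one]; exact one_ne_zero, by simp⟩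
  zero_mem' := ⟨0, 1, by rw [map_one]; exact one_ne_zero, by simp⟩
  mul_mem' := by
    rintro z w ⟨a, s, hs, h⟩ ⟨b, t, ht, h'⟩
    refine ⟨a * b, s * t, by rw [map_mul]; exact mul_ne_zero hs ht, ?_⟩
    push_cast
    linear_combination (w * t) * h + (a : G.splitField) * h'
  add_mem' := by
    rintro z w ⟨a, s, hs, h⟩ ⟨b, t, ht, h'⟩
    refine ⟨a * t + b * s, s * t, by rw [map_mul]; exact mul_ne_zero hs ht, ?_⟩
    push_cast
    linear_combination (t : G.splitField) * h + (s : G.splitField) * h'
  neg_mem' := by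
    rintro z ⟨a, s, hs, h⟩
    refine ⟨-a, s, hs, ?_⟩
    push_cast
    linear_combination -h

omit [Fact (Nat.Prime q)] [NeZero q] in
theorem mem_loc (a : G.openChart) : (a : G.splitField) ∈ P.loc :=
  ⟨a, 1, by rw [map_one]; exact one_ne_zero, by simp⟩

theorem algebraMap_mem_loc (c : X.O) : algebraMap X.O G.splitField c ∈ P.loc :=
  P.mem_loc ⟨_, G.algebraMap_mem_openChart c⟩

omit [Fact (Nat.Prime q)] [NeZero q] in
theorem div_eq_of_frac {z : G.splitField} {a s b t : G.openChart} (hs : P.φ s ≠ 0) (ht : P.φ t ≠ 0)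
    (h : z * s = a) (h' : z * t = b) : P.φ a / P.φ s = P.φ b / P.φ t := by
  rw [div_eq_div_iff hs ht, ← map_mul, ← map_mul]
  refine congrArg P.φ (Subtype.ext ?_)
  push_cast
  rw [← h, ← h']
  ring

/-- The value at the point. -/
def locVal : P.loc →+* X.k where
  toFun z := P.φ z.2.choose / P.φ z.2.choose_spec.choose
  map_one' := by
    obtain ⟨h1, h2⟩ := (1 : P.loc).2.choose_spec.choose_spec
    rw [P.div_eq_of_frac (b := 1) (t := 1) h1 (by rw [map_one]; exact one_ne_zero) h2 (by simp),
      map_one, div_one]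
  map_zero' := by
    obtain ⟨h1, h2⟩ := (0 : P.loc).2.choose_spec.choose_spec
    rw [P.div_eq_of_frac (b := 0) (t := 1) h1 (by rw [map_one]; exact one_ne_zero) h2 (by simp),
      map_zero, zero_div]
  map_mul' z w := by
    obtain ⟨hz, hz'⟩ := z.2.choose_spec.choose_spec
    obtain ⟨hw, hw'⟩ := w.2.choose_spec.choose_spec
    obtain ⟨h1, h2⟩ := (z * w).2.choose_spec.choose_spec
    rw [P.div_eq_of_frac (b := z.2.choose * w.2.choose)
      (t := z.2.choose_spec.choose * w.2.choose_spec.choose) h1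
      (by rw [map_mul]; exact mul_ne_zero hz hw) h2 ?_, map_mul, map_mul, div_mul_div_comm]
    push_cast
    linear_combination (↑w * ↑w.2.choose_spec.choose) * hz' + ↑z.2.choose * hw'
  map_add' z w := by
    obtain ⟨hz, hz'⟩ := z.2.choose_spec.choose_spec
    obtain ⟨hw, hw'⟩ := w.2.choose_spec.choose_spec
    obtain ⟨h1, h2⟩ := (z + w).2.choose_spec.choose_spec
    rw [P.div_eq_of_frac
      (b := z.2.choose * w.2.choose_spec.choose + z.2.choose_spec.choose * w.2.choose)
      (t := z.2.choose_spec.choose * w.2.choose_spec.choose) h1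
      (by rw [map_mul]; exact mul_ne_zero hz hw) h2 ?_, div_add_div _ _ hz hw, map_add, map_mul,
      map_mul, map_mul]
    push_cast
    linear_combination (↑w.2.choose_spec.choose) * hz' + ↑z.2.choose_spec.choose * hw'

omit [Fact (Nat.Prime q)] [NeZero q] in
theorem locVal_eq (z : P.loc) {a s : G.openChart} (hs : P.φ s ≠ 0)
    (h : (z : G.splitField) * s = a) : P.locVal z = P.φ a / P.φ s :=
  P.div_eq_of_frac z.2.choose_spec.choose_spec.1 hs z.2.choose_spec.choose_spec.2 h

omit [Fact (Nat.Prime q)] [NeZero q] in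
theorem locVal_coe (a : G.openChart) : P.locVal ⟨a, P.mem_loc a⟩ = P.φ a := by
  rw [P.locVal_eq _ (s := 1) (a := a) (by rw [map_one]; exact one_ne_zero) (by simp), map_one,
    div_one]

theorem locVal_algebraMap (c : X.O) :
    P.locVal ⟨_, P.algebraMap_mem_loc c⟩ = X.resK c :=
  (P.locVal_coe ⟨_, G.algebraMap_mem_openChart c⟩).trans (P.const c _ rfl)

omit [Fact (Nat.Prime q)] [NeZero q] in
theorem isUnit_of_locVal_ne {z : P.loc} (hz : P.locVal z ≠ 0) : IsUnit z := by
  obtain ⟨a, s, hs, h⟩ := z.2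
  rw [P.locVal_eq z hs h, div_ne_zero_iff] at hz
  have ha := P.coe_ne_zero_of_φ_ne hz.1
  have hz0 : (z : G.splitField) ≠ 0 := fun h0 => ha (by rw [← h, h0, zero_mul])
  refine IsUnit.of_mul_eq_one ⟨(z : G.splitField)⁻¹, s, a, hz.1, ?_⟩
    (Subtype.ext (mul_inv_cancel₀ hz0))
  rw [← h, inv_mul_cancel_left₀ hz0]

/-! ### Norms -/

/-- The point is the only one over its image in the base. -/
def OnlyPoint : Prop :=
  ∀ s : G.openChart, P.φ s ≠ 0 →
    ∃ a b : G.openChart, P.φ b ≠ 0 ∧ (b : G.splitField) ∈ G.B₀ ∧ s * a = b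

/-- The ring of functions integral over `O[h, 1/D]` among the series. -/
def serInt : Subring Ser :=
  intSet X.O (G.valO '' ({G.baseHom G.h, G.baseHom G.Dinv} : Set G.splitField))

theorem embO_mem_serInt (Q : Pair q) (z : G.openChart) :
    G.emb G.one Q (z : G.splitField) ∈ serInt (G := G) := by
  set s : Set G.splitField := {G.baseHom G.h, G.baseHom G.Dinv} with hs
  obtain ⟨f, hf, hz⟩ := (z.2 : IsIntegral (Algebra.adjoin X.O s) (z : G.splitField))
  have hle : (Algebra.adjoin X.O s).map (G.embO G.one Q) = Algebra.adjoin X.O (G.valO '' s) := by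
    rw [AlgHom.map_adjoin]
    refine congrArg (Algebra.adjoin X.O) (Set.image_congr fun x hx => ?_)
    have hx' : x ∈ Set.range G.baseHom := by
      rcases hx with rfl | hx
      · exact ⟨_, rfl⟩
      · rw [Set.mem_singleton_iff.mp hx]; exact ⟨_, rfl⟩
    obtain ⟨c, rfl⟩ := hx'
    show G.emb G.one Q (G.baseHom c) = G.valO (G.baseHom c)
    rw [G.emb_baseHom, G.valO_apply, G.coe_baseHom, G.cs_one]
  let ι : Algebra.adjoin X.O s →+* Algebra.adjoin X.O (G.valO '' s) :=
    ((G.embO G.one Q).toRingHom.comp (Algebra.adjoin X.O s).val.toRingHom).codRestrict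
      (Algebra.adjoin X.O (G.valO '' s)).toSubring fun a => hle.le ⟨a.1, a.2, rfl⟩
  refine ⟨f.map ι, hf.map _, ?_⟩
  rw [Polynomial.eval₂_map]
  show Polynomial.eval₂ ((G.embO G.one Q).toRingHom.comp (Algebra.adjoin X.O s).val.toRingHom)
    ((G.embO G.one Q).toRingHom (z : G.splitField)) f = 0
  rw [← Polynomial.hom_eval₂]
  exact (congrArg _ hz).trans (map_zero _)

omit [Fact (Nat.Prime q)] [NeZero q] in
theorem mem_openChart_of_valO {z : G.splitField} (hz : G.valO z ∈ serInt (G := G)) :
    z ∈ G.openChart := by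
  set s : Set G.splitField := {G.baseHom G.h, G.baseHom G.Dinv} with hs
  obtain ⟨f, hf, hz⟩ :=
    (show IsIntegral (Algebra.adjoin X.O (G.valO '' s)) (G.valO z) from hz)
  let ι : Algebra.adjoin X.O s →+* Algebra.adjoin X.O (G.valO '' s) :=
    (G.valO.toRingHom.comp (Algebra.adjoin X.O s).val.toRingHom).codRestrict
      (Algebra.adjoin X.O (G.valO '' s)).toSubring fun a => by
        show G.valO a.1 ∈ Algebra.adjoin X.O (G.valO '' s)
        rw [← AlgHom.map_adjoin]
        exact ⟨a.1, a.2, rfl⟩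
  have hι : Function.Surjective ι := by
    rintro ⟨y, hy⟩
    rw [← AlgHom.map_adjoin] at hy
    obtain ⟨x, hx, rfl⟩ := hy
    exact ⟨⟨x, hx⟩, rfl⟩
  obtain ⟨g, hg, -, hgm⟩ := Polynomial.lifts_and_degree_eq_and_monic (f := ι)
    ((Polynomial.lifts_iff_coeff_lifts f).mpr fun n => hι _) hf
  refine ⟨g, hgm, G.valO.toRingHom.injective ?_⟩
  rw [Polynomial.hom_eval₂, map_zero]
  show Polynomial.eval₂ ((algebraMap _ Ser).comp ι) (G.valO z) g = 0
  rw [← Polynomial.eval₂_map, hg]
  exact hz

theorem valO_mem_serInt (z : G.openChart) : G.valO (z : G.splitField) ∈ serInt (G := G) := by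
  have h := embO_mem_serInt (Pair.base q) z
  rwa [G.emb_base] at h

/-- The inclusion of the chart among the integral series. -/
def chartSer : G.openChart →+* serInt (G := G) :=
  (G.valO.toRingHom.comp G.openChart.subtype).codRestrict (serInt (G := G)) valO_mem_serInt

/-- A conjugation of the chart among the integral series. -/
def conjSer (Q : Pair q) : G.openChart →+* serInt (G := G) :=
  ((G.embO G.one Q).toRingHom.comp G.openChart.subtype).codRestrict (serInt (G := G))
    (embO_mem_serInt Q)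

theorem coe_chartSer (z : G.openChart) :
    ((chartSer z : serInt (G := G)) : Ser) = ((z : G.splitField) : Ser) := rfl

theorem coe_conjSer (Q : Pair q) (z : G.openChart) :
    ((conjSer Q z : serInt (G := G)) : Ser) = G.emb G.one Q (z : G.splitField) := rfl

theorem conjSer_base (Q : Pair q) {b : G.openChart} (hb : (b : G.splitField) ∈ G.B₀) :
    conjSer Q b = chartSer b := by
  refine Subtype.ext ?_
  rw [coe_conjSer, coe_chartSer, G.emb_B₀_eq G.one Q (Pair.base q) hb, G.emb_base]

theorem chartSer_isIntegral : (chartSer (G := G)).IsIntegral := by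
  intro w
  obtain ⟨f, hf, hw⟩ := w.2
  have hle : ∀ a : Algebra.adjoin X.O
      (G.valO '' ({G.baseHom G.h, G.baseHom G.Dinv} : Set G.splitField)),
      ∃ b : G.openChart, (G.valO.toRingHom.comp G.openChart.subtype) b = (a : Ser) := by
    rintro ⟨a, ha⟩
    rw [← AlgHom.map_adjoin] at ha
    obtain ⟨x, hx, rfl⟩ := ha
    exact ⟨⟨x, mem_intSet_of_mem_adjoin hx⟩, rfl⟩
  obtain ⟨g, hg, -, hgm⟩ := Polynomial.lifts_and_degree_eq_and_monic
    (f := G.valO.toRingHom.comp G.openChart.subtype)
    (p := f.map (algebraMap _ Ser))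
    ((Polynomial.lifts_iff_coeff_lifts _).mpr fun n => by
      rw [Polynomial.coeff_map]; exact hle _) (hf.map _)
  refine ⟨g, hgm, Subtype.ext ?_⟩
  show (serInt (G := G)).subtype (Polynomial.eval₂ chartSer w g) = 0
  rw [Polynomial.hom_eval₂, show (serInt (G := G)).subtype.comp chartSer =
    G.valO.toRingHom.comp G.openChart.subtype from rfl, ← Polynomial.eval_map, hg,
    Polynomial.eval_map]
  exact hw

theorem chartSer_injective : Function.Injective (chartSer (G := G)) := fun a b h =>
  Subtype.ext (Subtype.ext ((coe_chartSer a).symm.trans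
    ((congrArg Subtype.val h).trans (coe_chartSer b))))

/-- A prime among the series over the point. -/
theorem exists_prime_over :
    ∃ n' : Ideal (serInt (G := G)), n'.IsPrime ∧ ∀ w, chartSer w ∈ n' ↔ P.φ w = 0 := by
  let : Algebra G.openChart (serInt (G := G)) := (chartSer (G := G)).toAlgebra
  have : Algebra.IsIntegral G.openChart (serInt (G := G)) := ⟨fun w => chartSer_isIntegral w⟩
  have : (RingHom.ker P.φ).IsPrime := RingHom.ker_isPrime _
  obtain ⟨n', hn', hcomap⟩ := Ideal.exists_ideal_over_prime_of_isIntegral_of_isDomain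
    (S := serInt (G := G)) (RingHom.ker P.φ)
    (fun w (hw : chartSer w = 0) => by
      rw [RingHom.mem_ker, chartSer_injective (hw.trans (map_zero _).symm), map_zero])
  exact ⟨n', hn', fun w => by rw [← RingHom.mem_ker, ← hcomap]; exact Iff.rfl⟩

/-- All conjugates of a function are congruent to its value. -/
theorem conj_congr (hP : P.OnlyPoint) (n' : Ideal (serInt (G := G))) [n'.IsPrime]
    (hn' : ∀ w, chartSer w ∈ n' ↔ P.φ w = 0) (Q : Pair q) {z : G.openChart} (hz : P.φ z = 0) :
    conjSer Q z ∈ n' := by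
  have : (n'.comap (conjSer Q)).IsPrime := Ideal.IsPrime.comap _
  have hsub : ∀ w, w ∈ n'.comap (conjSer Q) → P.φ w = 0 := by
    intro w hw
    by_contra hne
    obtain ⟨a, b, hb, hbB, hab⟩ := hP w hne
    have h1 : conjSer Q b ∈ n' := by rw [← hab, map_mul]; exact n'.mul_mem_right _ hw
    rw [conjSer_base Q hbB, hn'] at h1
    exact hb h1
  by_contra hne
  obtain ⟨t, ht⟩ := exists_mul_sub_one_mem (G := G) (S := G.openChart) G.algebraMap_mem_openChart
    (s := {G.baseHom G.h, G.baseHom G.Dinv}) (fun w hw => hw)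
    (fun w hw => subset_intSet _ hw) (n'.comap (conjSer Q))
    (by
      show conjSer Q _ ∈ n'
      rw [conjSer_base Q (G.B₀.algebraMap_mem ((q : X.O) : X.K)), hn', P.const (q : X.O) _ rfl,
        map_natCast, X.natCast_k])
    (fun x hx => by
      obtain ⟨d, hd⟩ := X.resK_surjective (P.φ ⟨x, subset_intSet _ hx⟩)
      refine ⟨d, ?_⟩
      have hxB : x ∈ G.B₀ := by
        rcases hx with rfl | hx
        · exact IntermediateField.subset_adjoin _ _ ⟨_, rfl⟩
        · rw [Set.mem_singleton_iff.mp hx]; exact IntermediateField.subset_adjoin _ _ ⟨_, rfl⟩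
      show conjSer Q _ ∈ n'
      rw [conjSer_base Q (sub_mem hxB (G.B₀.algebraMap_mem (d : X.K))), hn', map_sub,
        P.const d ⟨_, G.algebraMap_mem_openChart d⟩ rfl, hd, sub_self])
    (z := z) (show z ∉ n'.comap (conjSer Q) from hne)
  have h1 := hsub _ ht
  rw [map_sub, map_mul, hz, zero_mul, map_one, zero_sub, neg_eq_zero] at h1
  exact one_ne_zero h1

/-- All conjugates of a function have the same value at the point. -/
theorem norm_val_chart (hP : P.OnlyPoint) (K' : IntermediateField X.K G.splitField) {ι : Type}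
    [Fintype ι] (ε : ι → Pair q)
    (hK : ∀ z, ((Algebra.norm K' z : G.splitField) : Ser) = ∏ i, G.emb G.one (ε i) z)
    (z : G.openChart) :
    ∃ hN : (Algebra.norm K' (z : G.splitField) : G.splitField) ∈ G.openChart,
      P.φ ⟨_, hN⟩ = P.φ z ^ Fintype.card ι := by
  classical
  have hN : (Algebra.norm K' (z : G.splitField) : G.splitField) ∈ G.openChart := by
    refine mem_openChart_of_valO ?_
    rw [G.valO_apply, hK]
    exact prod_mem fun i _ => embO_mem_serInt _ z
  refine ⟨hN, ?_⟩
  obtain ⟨c, hc⟩ := X.resK_surjective (P.φ z)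
  obtain ⟨n', hn', hj⟩ := P.exists_prime_over
  have := hn'
  have hC : P.φ ⟨_, G.algebraMap_mem_openChart c⟩ = P.φ z := (P.const c _ rfl).trans hc
  have key : ∀ Q : Pair q,
      conjSer Q z - chartSer ⟨_, G.algebraMap_mem_openChart c⟩ ∈ n' := fun Q => by
    rw [← conjSer_base Q (b := ⟨_, G.algebraMap_mem_openChart c⟩) (G.B₀.algebraMap_mem (c : X.K)),
      ← map_sub]
    exact P.conj_congr hP n' hj Q (by rw [map_sub, hC, sub_self])
  have e1 : chartSer ⟨_, hN⟩ = ∏ i, conjSer (ε i) z := by
    refine Subtype.ext ?_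
    rw [show ((∏ i, conjSer (ε i) z : serInt (G := G)) : Ser) =
      ∏ i, ((conjSer (ε i) z : serInt (G := G)) : Ser) from map_prod (serInt (G := G)).subtype _ _]
    exact hK (z : G.splitField)
  have h2 : chartSer (⟨_, hN⟩ - ⟨_, G.algebraMap_mem_openChart c⟩ ^ Fintype.card ι) ∈ n' := by
    rw [map_sub, map_pow, e1, ← Ideal.Quotient.eq, map_prod, map_pow]
    calc ∏ i, Ideal.Quotient.mk n' (conjSer (ε i) z)
        = ∏ _i : ι, Ideal.Quotient.mk n' (chartSer ⟨_, G.algebraMap_mem_openChart c⟩) :=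
          Finset.prod_congr rfl fun i _ => Ideal.Quotient.eq.mpr (key (ε i))
      _ = _ := by rw [Finset.prod_const, Finset.card_univ]
  rw [hj, map_sub, map_pow, hC, sub_eq_zero] at h2
  exact h2

/-- The values of norms of functions regular at the point. -/
theorem norm_val (hP : P.OnlyPoint) (K' : IntermediateField X.K G.splitField) {ι : Type}
    [Fintype ι] (ε : ι → Pair q)
    (hK : ∀ z, ((Algebra.norm K' z : G.splitField) : Ser) = ∏ i, G.emb G.one (ε i) z)
    (z : P.loc) :
    ∃ hN : (Algebra.norm K' (z : G.splitField) : G.splitField) ∈ P.loc,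
      P.locVal ⟨_, hN⟩ = P.locVal z ^ Fintype.card ι := by
  obtain ⟨a, s, hs, h⟩ := z.2
  obtain ⟨ha', ea⟩ := P.norm_val_chart hP K' ε hK a
  obtain ⟨hs', es⟩ := P.norm_val_chart hP K' ε hK s
  have hne : P.φ ⟨_, hs'⟩ ≠ 0 := es ▸ pow_ne_zero _ hs
  have h' : (Algebra.norm K' (z : G.splitField) : G.splitField) *
      (Algebra.norm K' (s : G.splitField) : G.splitField) =
      (Algebra.norm K' (a : G.splitField) : G.splitField) := by
    refine Subtype.ext ?_
    rw [MulMemClass.coe_mul, hK, hK, hK, ← Finset.prod_mul_distrib]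
    exact Finset.prod_congr rfl fun i _ => (map_mul _ _ _).symm.trans (congrArg _ h)
  have hmem : (Algebra.norm K' (z : G.splitField) : G.splitField) ∈ P.loc :=
    ⟨⟨_, ha'⟩, ⟨_, hs'⟩, hne, h'⟩
  refine ⟨hmem, ?_⟩
  refine (P.locVal_eq ⟨_, hmem⟩ (a := ⟨_, ha'⟩) (s := ⟨_, hs'⟩) hne h').trans ?_
  refine Eq.trans ?_ (congrArg (fun x => x ^ Fintype.card ι) (P.locVal_eq z hs h)).symm
  exact (congrArg₂ (fun x y => x / y) ea es).trans (div_pow _ _ _).symm

/-- The value of a norm to a line field. -/
theorem norm_LF_val (hP : P.OnlyPoint) (b : Bool) (z : P.loc) :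
    ∃ hN : (Algebra.norm (G.LF b) (z : G.splitField) : G.splitField) ∈ P.loc,
      P.locVal ⟨_, hN⟩ = P.locVal z ^ q := by
  obtain ⟨hN, h⟩ := P.norm_val hP (G.LF b) (fun Q : {Q : Pair q // Q.line b = _} => Q.1)
    (G.coe_norm_LF b) z
  rw [card_fibre] at h
  exact ⟨hN, h⟩

/-- The value of a norm to the base. -/
theorem norm_B₀_val (hP : P.OnlyPoint) (z : P.loc) :
    ∃ hN : (Algebra.norm G.B₀ (z : G.splitField) : G.splitField) ∈ P.loc,
      P.locVal ⟨_, hN⟩ = P.locVal z ^ ((q + 1) * q) := by
  obtain ⟨hN, h⟩ := P.norm_val hP G.B₀ id G.coe_norm_B₀ z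
  rw [card_pair] at h
  exact ⟨hN, h⟩

end Point

end Model

end FLTAgent.CarayolSquare
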