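import Fermat.Agent.CarayolSquare.Geometry.Final
import Fermat.Agent.CarayolSquare.Supersingular.Derivative
import Fermat.Agent.CarayolSquare.Geometry.Vertical

/-!
# The open chart over the functions of level `M₁`

Integrality, the Kronecker congruence inside the split field (`kronecker_field`), and the subring
`hSub` generated by the base and the two translates of `h` (`isIntegral_hSub`).
-/

set_option autoImplicit false

noncomputable section

open ModularCurve Polynomial

namespace FLTAgent.CarayolSquare

attribute [local instance high] RingHom.instRingHomClass RingHomClass.toAddMonoidHomClass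
  AddMonoidHomClass.toAddHomClass AlgHomClass.toRingHomClass RingHomClass.toMonoidHomClass
  MonoidHomClass.toMulHomClass

variable {q : ℕ} [NeZero q] [Fact q.Prime]

namespace Model

variable {X : Ctx q} {M₁ : ℕ} [NeZero M₁] (G : Model X M₁)

omit [Fact (Nat.Prime q)] [NeZero q] in
theorem mem_openChart_iff {z : G.splitField} :
    z ∈ G.openChart ↔ IsIntegral (Algebra.adjoin X.O
      ({G.baseHom G.h, G.baseHom G.Dinv} : Set G.splitField)) z := Iff.rfl

omit [Fact (Nat.Prime q)] [NeZero q] in
theorem map_hA : G.hA.map G.baseHom =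
    Algebra.adjoin X.O ({G.baseHom G.h, G.baseHom G.Dinv} : Set G.splitField) := by
  rw [hA, AlgHom.map_adjoin, Set.image_pair]

omit [Fact (Nat.Prime q)] [NeZero q] in
theorem openChart_valuation_iff {z : G.splitField} :
    z ∈ G.openChart ↔ ∀ W : ValuationSubring G.splitField,
      (∀ a ∈ G.hA, G.baseHom a ∈ W) → z ∈ W := by
  rw [mem_openChart_iff, ← G.map_hA, isIntegral_subalgebra_iff_toSubring]
  constructor
  · intro h W hW
    exact mem_of_isIntegral_of_subring h W (by rintro _ ⟨a, ha, rfl⟩; exact hW a ha)
  · intro h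
    exact isIntegral_of_forall_valuationSubring fun W hW => h W fun a ha => hW ⟨a, ha, rfl⟩

omit [Fact (Nat.Prime q)] [NeZero q] in
/-- Roots of monic polynomials with coefficients in a valuation ring lie in it. -/
theorem mem_of_monic_root (W : ValuationSubring G.splitField) {P : Polynomial G.C} (hP : P.Monic)
    (hW : ∀ n, G.baseHom (P.coeff n) ∈ W) {z : G.splitField}
    (hz : P.eval₂ G.baseHom.toRingHom z = 0) : z ∈ W := by
  obtain ⟨Q, hQ, -, hQm⟩ := lifts_and_degree_eq_and_monic (f := algebraMap W G.splitField)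
    (p := P.map G.baseHom.toRingHom)
    ((lifts_iff_coeff_lifts _).mpr fun n => by rw [coeff_map]; exact ⟨⟨_, hW n⟩, rfl⟩) (hP.map _)
  have hint : IsIntegral W z := ⟨Q, hQm, by
    rw [← eval_map, hQ, eval_map]
    exact hz⟩
  obtain ⟨w, hw⟩ := IsIntegrallyClosed.isIntegral_iff.mp hint
  rw [← hw]
  exact w.2

/-- The base functions inside the open chart. -/
def baseO : G.C →+* G.openChart :=
  G.baseHom.toRingHom.codRestrict G.openChart G.baseHom_mem_openChart

theorem coe_baseO (c : G.C) : (G.baseO c : G.splitField) = G.baseHom c := rfl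

/-- The translate of `h` along a line of the pair. -/
def hb (b : Bool) : G.splitField := G.gen b (.pull G.h)

omit [Fact (Nat.Prime q)] [NeZero q] in
theorem emb_hb (P : Pair q) (b : Bool) :
    G.emb G.one P (G.hb b) = (G.subI (P.line b) G.h : Ser) := by
  rw [hb, G.emb_gen, G.sub_h]
  rfl

omit [Fact (Nat.Prime q)] in
/-- The Kronecker congruence in the field. -/
theorem kronecker_field (b : Bool) :
    (G.hb b - G.baseHom G.h ^ q) * (G.hb b ^ q - G.baseHom G.h) +
      (q : G.splitField) * G.Kpol.eval₂ G.baseHom.toRingHom (G.hb b) = 0 := by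
  set L : Line q := (Pair.base q).line b with hL
  have h := congrArg (Polynomial.eval (G.subI L G.h)) G.map_Phi
  rw [Polynomial.eval_map, Polynomial.eval_prod, Finset.prod_eq_zero (Finset.mem_univ L)
    (by rw [Polynomial.eval_sub, Polynomial.eval_X, Polynomial.eval_C, sub_self])] at h
  have h1 := congrArg X.intSer.subtype h
  rw [Polynomial.hom_eval₂, map_zero] at h1
  refine G.splitField.val.toRingHom.injective ?_
  rw [map_zero, ← h1]
  have hco : G.splitField.val.toRingHom.comp G.baseHom.toRingHom = X.intSer.subtype.comp G.upI :=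
    RingHom.ext fun c => G.coe_baseHom c
  have hx : G.splitField.val.toRingHom (G.hb b) = X.intSer.subtype (G.subI L G.h) := by
    have := G.emb_hb (Pair.base q) b
    rwa [G.emb_base] at this
  have e : (G.hb b - G.baseHom G.h ^ q) * (G.hb b ^ q - G.baseHom G.h) +
      (q : G.splitField) * G.Kpol.eval₂ G.baseHom.toRingHom (G.hb b) =
      (G.kronecker + Polynomial.C (q : G.C) * G.Kpol).eval₂ G.baseHom.toRingHom (G.hb b) := by
    rw [eval₂_add, eval₂_mul, eval₂_C, map_natCast, kronecker, eval₂_mul, eval₂_sub, eval₂_sub,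
      eval₂_X, eval₂_X_pow, eval₂_C, eval₂_C, map_pow]
    rfl
  rw [e, Polynomial.hom_eval₂, hco, hx]

omit [Fact (Nat.Prime q)] in
theorem hb_mem_openChart (b : Bool) : G.hb b ∈ G.openChart := by
  rw [openChart_valuation_iff]
  intro W hW
  have hcoef : G.HasCoeffs (G.kronecker + Polynomial.C (q : G.C) * G.Kpol) := fun n => by
    rw [coeff_add, coeff_C_mul]
    exact add_mem (G.hasCoeffs_kronecker n) (mul_mem (natCast_mem _ _) (G.hasCoeffs_Kpol n))
  have hinj : Function.Injective G.upI := fun a c h =>
    Subtype.ext (X.up.injective (congrArg Subtype.val h))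
  refine G.mem_of_monic_root W (monic_of_injective hinj (by
    rw [G.map_Phi]; exact monic_prod_of_monic _ _ fun L _ => monic_X_sub_C _))
    (fun n => hW _ (hcoef n)) ?_
  rw [eval₂_add, eval₂_mul, eval₂_C, map_natCast, kronecker, eval₂_mul, eval₂_sub, eval₂_sub,
    eval₂_X, eval₂_X_pow, eval₂_C, eval₂_C, map_pow]
  exact G.kronecker_field b

omit [Fact (Nat.Prime q)] in
theorem hb_true_ne : G.hb true ≠ G.hb false := by
  intro h
  have h1 := congrArg (G.emb G.one (Pair.base q)) h
  rw [hb, hb, G.emb_gen, G.emb_gen, G.sub_h, G.sub_h] at h1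
  exact (Pair.base q).2 (G.sub_h_injective h1)

/-- The residues of the translates of `h`. -/
theorem red_hb (κ : Option Bool) (b : Bool) :
    G.red κ (G.hb b) = if κ = some b then qExpand X.k q (qExpand X.k q G.hbar) else G.hbar := by
  obtain ⟨-, hr⟩ := G.red_of_emb (κ := κ) (z := G.hb b)
    ⟨_, X.intSer_le_gaussRing (G.subI ((kindPair κ).line b) G.h).2⟩ (G.emb_hb _ b)
  rw [hr, X.gaussRes_of_intSer]
  have h : ∀ L : Line q, X.redS (G.subI L G.h) =
      if L = none then qExpand X.k q (qExpand X.k q G.hbar) else G.hbar := fun L => by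
    cases L with
    | none => exact G.redS_subI_none G.h
    | some c => exact G.redS_subI_some c G.h
  refine (h ((kindPair κ).line b)).trans ?_
  rcases κ with _ | _ | _ <;> cases b <;> simp [kindPair, Pair.line, Pair.base]

omit [Fact (Nat.Prime q)] in
theorem gbar_ne_zero : G.hbar - qExpand X.k q (qExpand X.k q G.hbar) ≠ 0 := by
  intro h
  rw [← G.hbar_pow, map_pow, ← G.hbar_pow, ← pow_mul, ← pow_two,
    show G.hbar = G.evh Polynomial.X from (eval₂_X _ _).symm, ← map_pow, ← map_sub,
    ← map_zero G.evh] at h
  have h1 := congrArg derivative (G.evh_injective h)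
  rw [Model.derivative_g, derivative_zero] at h1
  exact one_ne_zero h1

/-! ### The subring generated by the base and the two translates of `h` -/

/-- Generators of `C` as an algebra. -/
def gensC : Finset G.C :=
  open Classical in insert G.h (insert G.Dinv G.exists_generators.choose)

/-- The algebra generated by the base and the two translates of `h`. -/
def hSub : Subalgebra X.O G.splitField :=
  Algebra.adjoin X.O (G.baseHom '' (G.gensC : Set G.C) ∪ {G.hb true, G.hb false})

omit [Fact (Nat.Prime q)] [NeZero q] in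
theorem baseHom_mem_hSub (c : G.C) : G.baseHom c ∈ G.hSub := by
  classical
  obtain ⟨a, ha, e⟩ := G.exists_generators.choose_spec c
  have hmem : ∀ t ∈ G.gensC, G.baseHom t ∈ G.hSub := fun t ht =>
    Algebra.subset_adjoin (Or.inl ⟨t, ht, rfl⟩)
  have hA : ∀ x ∈ G.hA, G.baseHom x ∈ G.hSub := by
    intro x hx
    induction hx using Algebra.adjoin_induction with
    | mem z hz =>
      rcases hz with rfl | rfl <;> exact hmem _ (by simp [gensC])
    | algebraMap r => rw [AlgHom.commutes]; exact G.hSub.algebraMap_mem r
    | add a b _ _ ha hb => rw [map_add]; exact add_mem ha hb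
    | mul a b _ _ ha hb => rw [map_mul]; exact mul_mem ha hb
  rw [← e, map_sum]
  refine sum_mem fun t ht => ?_
  rw [map_mul]
  refine mul_mem (hA _ ?_) (hmem t (Finset.mem_insert_of_mem (Finset.mem_insert_of_mem ht)))
  have h2 := ha t
  rw [hRing, show ({(G.h : Ser), (G.Dinv : Ser)} : Set Ser) = G.C.val '' {G.h, G.Dinv} by
    rw [Set.image_pair]; rfl, ← AlgHom.map_adjoin] at h2
  obtain ⟨x, hx, ex⟩ := Subalgebra.mem_map.mp h2
  rwa [show x = a t from Subtype.ext ex] at hx

omit [Fact (Nat.Prime q)] [NeZero q] in
theorem hb_mem_hSub (b : Bool) : G.hb b ∈ G.hSub :=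
  Algebra.subset_adjoin (Or.inr (by cases b <;> simp))

theorem hSub_le_openChart : G.hSub.toSubring ≤ G.openChart := by
  intro z hz
  induction hz using Algebra.adjoin_induction with
  | mem z hz =>
    rcases hz with ⟨c, -, rfl⟩ | hz
    · exact G.baseHom_mem_openChart c
    · rcases hz with rfl | rfl <;> exact G.hb_mem_openChart _
  | algebraMap r => exact algebraMap_mem_intSet _ r
  | add a b _ _ ha hb => exact add_mem ha hb
  | mul a b _ _ ha hb => exact mul_mem ha hb

omit [Fact (Nat.Prime q)] [NeZero q] in
theorem isNoetherianRing_hSub : IsNoetherianRing G.hSub.toSubring := by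
  have := X.dvr
  classical
  have hfg : G.hSub.FG := ⟨G.gensC.image G.baseHom ∪ {G.hb true, G.hb false}, by simp [hSub]⟩
  exact (isNoetherianRing_of_fg hfg : IsNoetherianRing G.hSub)

omit [Fact (Nat.Prime q)] in
theorem frac_hSub (z : G.splitField) :
    ∃ a s : G.hSub.toSubring, (s : G.splitField) ≠ 0 ∧ z * s = a := by
  let F₁ : IntermediateField G.B₀ G.splitField :=
    IntermediateField.adjoin G.B₀ ({G.hb true, G.hb false} : Set G.splitField)
  have htop : F₁ = ⊤ := by
    let res : Pair q → (F₁ →ₐ[G.B₀] BigF) := fun P => (G.embB P).comp F₁.val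
    have hinj : Function.Injective res := fun P P' h => G.line_injective G.one rfl fun b => by
      refine (algebraMap Ser BigF).injective ?_
      have hm : G.hb b ∈ F₁ := IntermediateField.subset_adjoin _ _ (by cases b <;> simp)
      exact DFunLike.congr_fun h (⟨_, hm⟩ : F₁)
    have : Algebra.IsAlgebraic G.B₀ F₁ := Algebra.IsAlgebraic.of_finite _ _
    have : Algebra.IsSeparable G.B₀ F₁ := Algebra.IsAlgebraic.isSeparable_of_perfectField
    refine IntermediateField.eq_of_le_of_finrank_le le_top ?_
    rw [IntermediateField.finrank_top', G.finrank_B₀]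
    exact card_le_finrank hinj
  let Frac : G.splitField → Prop := fun w =>
    ∃ a s : G.hSub.toSubring, (s : G.splitField) ≠ 0 ∧ w * s = a
  have hof : ∀ w ∈ G.hSub, Frac w := fun w hw => ⟨⟨w, hw⟩, 1, by simp, by simp⟩
  have hinv : ∀ w, Frac w → Frac w⁻¹ := by
    rintro w ⟨a, s, hs, h⟩
    rcases eq_or_ne w 0 with rfl | hw
    · exact ⟨0, 1, by simp, by simp⟩
    · exact ⟨s, a, by rw [← h]; exact mul_ne_zero hw hs, by
        rw [← h, ← mul_assoc, inv_mul_cancel₀ hw, one_mul]⟩
  have hadd : ∀ w v, Frac w → Frac v → Frac (w + v) := by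
    rintro w v ⟨a, s, hs, h⟩ ⟨b, t, ht, h'⟩
    exact ⟨a * t + b * s, s * t, by push_cast; exact mul_ne_zero hs ht, by
      push_cast; linear_combination (t : G.splitField) * h + (s : G.splitField) * h'⟩
  have hmul : ∀ w v, Frac w → Frac v → Frac (w * v) := by
    rintro w v ⟨a, s, hs, h⟩ ⟨b, t, ht, h'⟩
    exact ⟨a * b, s * t, by push_cast; exact mul_ne_zero hs ht, by
      push_cast; linear_combination (v * (t : G.splitField)) * h + (a : G.splitField) * h'⟩
  have hB : ∀ w ∈ G.B₀, Frac w := by
    intro w hw
    induction hw using IntermediateField.adjoin_induction with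
    | mem x hx => obtain ⟨c, rfl⟩ := hx; exact hof _ (G.baseHom_mem_hSub c)
    | algebraMap k =>
      obtain ⟨a, b, hb, h⟩ := X.exists_div_O k
      refine ⟨⟨_, G.hSub.algebraMap_mem a⟩, ⟨_, G.hSub.algebraMap_mem b⟩,
        (_root_.map_ne_zero (algebraMap X.K G.splitField)).mpr fun h0 => hb (Subtype.ext h0), ?_⟩
      show algebraMap X.K G.splitField k * algebraMap X.K G.splitField (b : X.K) =
        algebraMap X.K G.splitField (a : X.K)
      rw [← map_mul, h]
    | add x y _ _ hx hy => exact hadd x y hx hy
    | inv x _ hx => exact hinv x hx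
    | mul x y _ _ hx hy => exact hmul x y hx hy
  have hz : z ∈ F₁ := htop ▸ IntermediateField.mem_top
  induction hz using IntermediateField.adjoin_induction with
  | mem x hx => rcases hx with rfl | rfl <;> exact hof _ (G.hb_mem_hSub _)
  | algebraMap w => exact hB _ w.2
  | add x y _ _ hx hy => exact hadd x y hx hy
  | inv x _ hx => exact hinv x hx
  | mul x y _ _ hx hy => exact hmul x y hx hy

omit [Fact (Nat.Prime q)] in
theorem isIntegral_hSub {z : G.splitField} (hz : z ∈ G.openChart) :
    IsIntegral G.hSub.toSubring z := by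
  refine isIntegral_of_forall_valuationSubring fun W hW => ?_
  exact G.openChart_valuation_iff.mp hz W fun a _ => hW (G.baseHom_mem_hSub a)

end Model

end FLTAgent.CarayolSquare
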