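import Fermat.Agent.Igusa.Series
import Mathlib.Algebra.Polynomial.Derivative
import Mathlib.RingTheory.PowerSeries.Expand

/-!
# The operator `t d/dt` on Laurent series

`thetaL` with its rules, and Frobenius on Laurent series in characteristic `q` (`pow_char`).
-/

set_option autoImplicit false

noncomputable section

open ModularCurve

namespace FLTAgent.CarayolSquare.ThetaOp

variable {R S : Type*} [CommRing R] [CommRing S]

/-- `Σ cₙ tⁿ ↦ Σ n cₙ tⁿ`. -/
def thetaL : LaurentSeries R →+ LaurentSeries R where
  toFun s :=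
    { coeff := fun n => (n : R) * s.coeff n
      isPWO_support' := s.isPWO_support'.mono fun n hn h0 => hn (by simp [h0]) }
  map_zero' := HahnSeries.ext (funext fun n => by simp)
  map_add' s t := HahnSeries.ext (funext fun n => by simp [mul_add])

theorem thetaL_coeff (s : LaurentSeries R) (n : ℤ) :
    (thetaL s).coeff n = (n : R) * s.coeff n := rfl

theorem thetaL_mul (s t : LaurentSeries R) :
    thetaL (s * t) = thetaL s * t + s * thetaL t := by
  ext n
  rw [thetaL_coeff, HahnSeries.coeff_add,
    HahnSeries.coeff_mul_left' (x := thetaL s) s.isPWO_support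
      (fun i hi h => hi (by rw [thetaL_coeff, h, mul_zero])),
    HahnSeries.coeff_mul_right' (y := thetaL t) t.isPWO_support
      (fun i hi h => hi (by rw [thetaL_coeff, h, mul_zero])),
    HahnSeries.coeff_mul, Finset.mul_sum, ← Finset.sum_add_distrib]
  refine Finset.sum_congr rfl fun ij hij => ?_
  obtain ⟨-, -, h⟩ := Finset.mem_antidiagonal.mp hij
  rw [thetaL_coeff, thetaL_coeff, ← h]
  push_cast
  ring

theorem thetaL_C (r : R) : thetaL (HahnSeries.C r : LaurentSeries R) = 0 := by
  ext n
  rw [thetaL_coeff, HahnSeries.C_apply, HahnSeries.coeff_single]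
  split <;> simp_all

theorem thetaL_one : thetaL (1 : LaurentSeries R) = 0 := by
  rw [← map_one (HahnSeries.C : R →+* LaurentSeries R), thetaL_C]

theorem thetaL_pow (s : LaurentSeries R) : ∀ i : ℕ,
    thetaL (s ^ i) = (i : LaurentSeries R) * s ^ (i - 1) * thetaL s
  | 0 => by simp [thetaL_one]
  | i + 1 => by
    rw [pow_succ, thetaL_mul, thetaL_pow s i, Nat.add_sub_cancel]
    rcases i with _ | i
    · simp
    · rw [Nat.add_sub_cancel]
      push_cast
      ring

/-- The chain rule. -/
theorem thetaL_eval (s : LaurentSeries R) (P : Polynomial R) :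
    thetaL (P.eval₂ HahnSeries.C s) = P.derivative.eval₂ HahnSeries.C s * thetaL s := by
  induction P using Polynomial.induction_on' with
  | add P Q hP hQ => simp only [Polynomial.eval₂_add, map_add, hP, hQ, add_mul]
  | monomial n r =>
    rw [Polynomial.eval₂_monomial, thetaL_mul, thetaL_C, thetaL_pow, Polynomial.derivative_monomial,
      Polynomial.eval₂_monomial, map_mul, map_natCast]
    ring

theorem thetaL_qExpand (e : ℕ) [NeZero e] (s : LaurentSeries R) :
    thetaL (qExpand R e s) = HahnSeries.C (e : R) * qExpand R e (thetaL s) := by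
  ext n
  rw [thetaL_coeff, HahnSeries.C_mul_eq_smul, HahnSeries.coeff_smul, smul_eq_mul]
  by_cases hd : (e : ℤ) ∣ n
  · obtain ⟨m, rfl⟩ := hd
    rw [qExpand_coeff_mul, qExpand_coeff_mul, thetaL_coeff]
    push_cast
    ring
  · rw [qExpand_coeff_of_not_dvd _ _ hd, qExpand_coeff_of_not_dvd _ _ hd, mul_zero, mul_zero]

section Frobenius

variable {k : Type*} [Field k] (q : ℕ) [Fact q.Prime] [CharP k q] [NeZero q]

theorem pow_char_ofPowerSeries (p : PowerSeries k) :
    (HahnSeries.ofPowerSeries ℤ k p) ^ q =
      qExpand k q (coeffMap (frobenius k q) (HahnSeries.ofPowerSeries ℤ k p)) := by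
  have : ExpChar k q := ExpChar.prime Fact.out
  have hp : (p.expand q (NeZero.ne q)).map (frobenius k q) = p ^ q :=
    MvPowerSeries.map_frobenius_expand q (NeZero.ne q)
  rw [← map_pow, ← hp]
  ext n
  by_cases hn : (q : ℤ) ∣ n
  · obtain ⟨i, rfl⟩ := hn
    rw [qExpand_coeff_mul, coeffMap_coeff]
    rcases le_or_gt 0 i with hi | hi
    · obtain ⟨j, rfl⟩ := Int.eq_ofNat_of_zero_le hi
      rw [← Nat.cast_mul, HahnSeries.ofPowerSeries_apply_coeff,
          HahnSeries.ofPowerSeries_apply_coeff,
        PowerSeries.coeff_map, PowerSeries.coeff_expand_mul]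
    · rw [ofPowerSeries_coeff_of_neg _ hi, map_zero, ofPowerSeries_coeff_of_neg]
      exact mul_neg_of_pos_of_neg (by exact_mod_cast (Fact.out : q.Prime).pos) hi
  · rw [qExpand_coeff_of_not_dvd _ _ hn]
    rcases le_or_gt 0 n with hi | hi
    · obtain ⟨j, rfl⟩ := Int.eq_ofNat_of_zero_le hi
      rw [HahnSeries.ofPowerSeries_apply_coeff, PowerSeries.coeff_map,
        PowerSeries.coeff_expand_of_not_dvd _ _ _ (fun h => hn (Int.natCast_dvd_natCast.mpr h)),
        map_zero]
    · rw [ofPowerSeries_coeff_of_neg _ hi]

/-- The `q`-th power of a Laurent series in characteristic `q`. -/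
theorem pow_char (f : LaurentSeries k) :
    f ^ q = qExpand k q (coeffMap (frobenius k q) f) := by
  conv_lhs => rw [← f.single_order_mul_powerSeriesPart]
  conv_rhs => rw [← f.single_order_mul_powerSeriesPart]
  rw [mul_pow, map_mul, map_mul, pow_char_ofPowerSeries, HahnSeries.single_pow, coeffMap_single,
    qExpand_single]
  simp

/-- A series with coefficients in the prime field has `q`-th power its expansion in `t ^ q`. -/
theorem pow_char_of_fixed {f : LaurentSeries k} (h : ∀ n, f.coeff n ^ q = f.coeff n) :
    f ^ q = qExpand k q f := by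
  rw [pow_char q f]
  exact congrArg _ (HahnSeries.ext (funext fun n => by rw [coeffMap_coeff, frobenius_def, h n]))

end Frobenius

end FLTAgent.CarayolSquare.ThetaOp
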